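import Fermat.Prelude.Def_ExtCitation_AdmissibleExtension_v2
import Fermat.Prelude.Def_ExtCitation_KummerBridge

/-!
From a non-split admissible extension to an everywhere unramified, `p`-split character of the
kernel of the mod `p` cyclotomic character, transforming by the inverse cyclotomic character.
-/

set_option autoImplicit false

noncomputable section

namespace Fermat.Agent.ClassField.S14

open ExtCitation

local notation "Qb" => AlgebraicClosure ℚ
local notation "Γ" => (AlgebraicClosure ℚ ≃ₐ[ℚ] AlgebraicClosure ℚ)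

/-- An everywhere unramified character `ψ` of `ker (cycloChar p)`, split at `p`, on which the
absolute Galois group acts through the inverse of the cyclotomic character. -/
structure UnramifiedEigenCharacter (p : ℕ) [Fact p.Prime] where
  toFun : Γ → ZMod p
  map_mul : ∀ a b : Γ, cycloChar p a = 1 → cycloChar p b = 1 → toFun (a * b) = toFun a + toFun b
  conj : ∀ σ h : Γ, cycloChar p h = 1 →
    (cycloChar p σ : ZMod p) * toFun (σ * h * σ⁻¹) = toFun h
  isOpen_ker : IsOpen {h : Γ | cycloChar p h = 1 ∧ toFun h = 0}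
  exists_ne_zero : ∃ h : Γ, cycloChar p h = 1 ∧ toFun h ≠ 0
  unramified : ∀ ℓ : ℕ, ℓ.Prime → ℓ ≠ p → ∀ A : ValuationSubring Qb, A.LiesOverPrime ℓ →
    ∀ σ ∈ A.inertiaSubgroupIn ℚ, cycloChar p σ = 1 ∧ toFun σ = 0
  split : ∀ A : ValuationSubring Qb, A.LiesOverPrime p →
    ∀ σ ∈ A.decompositionSubgroup ℚ, cycloChar p σ = 1 → toFun σ = 0

/-- The mod `p` cyclotomic character is surjective. -/
theorem cycloChar_surjective (p : ℕ) [Fact p.Prime] : Function.Surjective (cycloChar p) := by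
  have hp : p.Prime := Fact.out
  have : NeZero p := ⟨hp.ne_zero⟩
  have : Algebra.IsAlgebraic ℚ Qb := AlgebraicClosure.isAlgebraic ℚ
  have : IsAlgClosure ℚ Qb := ⟨inferInstance, inferInstance⟩
  have : IsGalois ℚ Qb := IsAlgClosure.isGalois ℚ Qb
  intro u
  obtain ⟨ζ, hζ⟩ := HasEnoughRootsOfUnity.exists_primitiveRoot Qb p
  have hζu : IsPrimitiveRoot (ζ ^ (u : ZMod p).val) p :=
    hζ.pow_of_coprime _ (ZMod.val_coe_unit_coprime u)
  have hconj : IsConjRoot ℚ ζ (ζ ^ (u : ZMod p).val) := by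
    rw [isConjRoot_def, ← Polynomial.cyclotomic_eq_minpoly_rat hζ hp.pos,
      ← Polynomial.cyclotomic_eq_minpoly_rat hζu hp.pos]
  obtain ⟨σ, hσ⟩ := IsConjRoot.exists_algEquiv hconj
  refine ⟨σ⁻¹, Units.ext (modularCyclotomicCharacter.unique _ _ _ fun t ht => ?_).symm⟩
  have hσ' : σ.symm ζ = ζ ^ (u : ZMod p).val := by
    rw [AlgEquiv.symm_apply_eq, hσ]
  obtain ⟨i, -, hi⟩ := hζ.eq_pow_of_pow_eq_one
    (show (t : Qb) ^ p = 1 by rw [← Units.val_pow_eq_pow_val, (mem_rootsOfUnity p t).mp ht, Units.val_one])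
  show σ.symm (t : Qb) = (t : Qb) ^ (u : ZMod p).val
  rw [← hi, map_pow, hσ', ← pow_mul, ← pow_mul, mul_comm]

variable {p : ℕ} [Fact p.Prime]
variable {V : Type} [AddCommGroup V] [Module (ZMod p) V]
  [DistribMulAction Γ V] [SMulCommClass Γ (ZMod p) V]
variable {C : Submodule (ZMod p) V}

theorem exists_unramifiedEigenCharacter (h3 : 3 ≤ p) (hadm : IsAdmissibleExtensionCts p V C)
    (hns : ¬ SplitsGlobally C) : Nonempty (UnramifiedEigenCharacter p) := by
  classical
  have hp : p.Prime := Fact.out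
  have hfinC : Finite C := Nat.finite_of_card_ne_zero (by rw [hadm.card_sub]; exact hp.ne_zero)
  -- a generator of the line `C`
  obtain ⟨c₀, hc₀C, hc₀⟩ : ∃ c₀ ∈ C, c₀ ≠ 0 := by
    by_contra h
    push Not at h
    have : Subsingleton C := ⟨fun a b => Subtype.ext ((h _ a.2).trans (h _ b.2).symm)⟩
    have := hadm.card_sub
    rw [Nat.card_of_subsingleton (0 : C)] at this
    exact hp.ne_one this.symm
  have hspan : ∀ x ∈ C, ∃ t : ZMod p, t • c₀ = x := by
    have hinj : Function.Injective fun t : ZMod p => (⟨t • c₀, C.smul_mem t hc₀C⟩ : C) :=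
      fun a b h => smul_left_injective (ZMod p) hc₀ (congrArg Subtype.val h)
    have hbij := (Function.Injective.bijective_of_nat_card_le hinj
      (by rw [Nat.card_zmod, hadm.card_sub]))
    intro x hx
    obtain ⟨t, ht⟩ := hbij.surjective ⟨x, hx⟩
    exact ⟨t, congrArg Subtype.val ht⟩
  obtain ⟨v₀, hv₀⟩ : ∃ v₀ : V, v₀ ∉ C := by
    by_contra h
    push Not at h
    have h1 : Nat.card C = Nat.card V := Nat.card_congr (Equiv.subtypeUnivEquiv h)
    rw [hadm.card_sub, hadm.card_total, sq] at h1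
    exact hp.ne_one ((mul_eq_left₀ hp.ne_zero).mp h1.symm)
  have hchi : ∀ (σ : Γ) (x : V), σ • x - (cycloChar p σ : ZMod p) • x ∈ C := fun σ x => by
    rw [coe_cycloChar]; exact hadm.cyclo_quot σ x
  -- the cocycle
  choose f hf using fun σ : Γ => hspan _ (hchi σ v₀)
  have hact : ∀ σ : Γ, σ • v₀ = (cycloChar p σ : ZMod p) • v₀ + f σ • c₀ := fun σ => by
    rw [hf σ]; abel
  have hfix : ∀ (σ : Γ) (t : ZMod p), σ • (t • c₀) = t • c₀ := fun σ t =>
    hadm.fixed_sub σ _ (C.smul_mem t hc₀C)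
  have hcoc : ∀ σ τ : Γ, f (σ * τ) = (cycloChar p τ : ZMod p) * f σ + f τ := by
    intro σ τ
    apply smul_left_injective (ZMod p) hc₀
    have h1 := hact (σ * τ)
    rw [mul_smul, hact τ, smul_add, hfix, smul_comm, hact σ, map_mul, Units.val_mul] at h1
    simp only [smul_add, smul_smul] at h1
    simp only [add_smul]
    rw [mul_comm (cycloChar p σ : ZMod p)] at h1
    exact (add_left_cancel ((add_assoc _ _ _).symm.trans h1)).symm
  -- `V` is spanned by `v₀` and `c₀`
  have hgen : ∀ x : V, ∃ a b : ZMod p, x = a • v₀ + b • c₀ := by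
    have hfinV : Finite V := Nat.finite_of_card_ne_zero
      (by rw [hadm.card_total]; exact pow_ne_zero _ hp.ne_zero)
    have hinj : Function.Injective fun ab : ZMod p × ZMod p => ab.1 • v₀ + ab.2 • c₀ := by
      rintro ⟨a, b⟩ ⟨a', b'⟩ h
      simp only at h
      have h1 : (a - a') • v₀ = (b' - b) • c₀ := by
        rw [sub_smul, sub_smul]
        linear_combination (norm := module) h
      have ha : a = a' := by
        by_contra hne
        refine hv₀ ?_
        rw [← one_smul (ZMod p) v₀, ← inv_mul_cancel₀ (sub_ne_zero.mpr hne), mul_smul, h1]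
        exact C.smul_mem _ (C.smul_mem _ hc₀C)
      subst ha
      exact Prod.ext rfl (smul_left_injective (ZMod p) hc₀ (add_left_cancel h))
    intro x
    obtain ⟨⟨a, b⟩, hab⟩ := (hinj.bijective_of_nat_card_le
      (by rw [Nat.card_prod, Nat.card_zmod, hadm.card_total, sq])).surjective x
    exact ⟨a, b, hab.symm⟩
  have htriv : ∀ σ : Γ, cycloChar p σ = 1 → f σ = 0 → ∀ x : V, σ • x = x := by
    intro σ h1 h2 x
    obtain ⟨a, b, rfl⟩ := hgen x
    rw [smul_add, hfix, smul_comm, hact, h1, h2]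
    simp
  have htriv' : ∀ σ : Γ, (∀ x : V, σ • x = x) → cycloChar p σ = 1 ∧ f σ = 0 := by
    intro σ h
    have hχ : cycloChar p σ = 1 := by
      by_contra hne
      refine hv₀ ?_
      have h1 := hchi σ v₀
      have h2 : (1 - (cycloChar p σ : ZMod p)) • v₀ ∈ C := by
        rw [sub_smul, one_smul]; rwa [h] at h1
      have h3 : (1 - (cycloChar p σ : ZMod p)) ≠ 0 :=
        sub_ne_zero.mpr fun h4 => hne (Units.ext h4.symm)
      simpa [smul_smul, inv_mul_cancel₀ h3] using C.smul_mem (1 - (cycloChar p σ : ZMod p))⁻¹ h2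
    refine ⟨hχ, smul_left_injective (ZMod p) hc₀ ?_⟩
    have h1 := hact σ
    rw [h, hχ, Units.val_one, one_smul] at h1
    simpa using h1.symm
  refine ⟨⟨f, fun a b _ hb => by rw [hcoc, hb]; simp, ?_, ?_, ?_, ?_, ?_⟩⟩
  · intro σ h hh
    have hh' : cycloChar p (σ * h * σ⁻¹) = 1 := by simp [hh]
    have h1 := hcoc (σ * h * σ⁻¹) σ
    rw [inv_mul_cancel_right, hcoc σ h, hh] at h1
    simp only [Units.val_one, one_mul] at h1
    linear_combination -h1
  · have : {h : Γ | cycloChar p h = 1 ∧ f h = 0} = {σ : Γ | ∀ v : V, σ • v = v} :=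
      Set.ext fun σ => ⟨fun h => htriv σ h.1 h.2, htriv' σ⟩
    rw [this]; exact hadm.open_kernel
  · by_contra h
    push Not at h
    obtain ⟨u, hu⟩ : ∃ u : (ZMod p)ˣ, u ≠ 1 := by
      refine ⟨-1, fun h1 => ?_⟩
      have : Fact (2 < p) := ⟨h3⟩
      exact ZMod.neg_one_ne_one (congrArg Units.val h1)
    obtain ⟨σ₀, hσ₀⟩ := cycloChar_surjective p u
    have hne : (u : ZMod p) - 1 ≠ 0 := sub_ne_zero.mpr fun h1 => hu (Units.ext h1)
    -- the eigenvector of `σ₀`
    let w : V := v₀ + (f σ₀ * ((u : ZMod p) - 1)⁻¹) • c₀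
    have hwC : w ∉ C := fun hw => hv₀ (by
      have := C.sub_mem hw (C.smul_mem (f σ₀ * ((u : ZMod p) - 1)⁻¹) hc₀C)
      simpa [w] using this)
    have hw : ∀ σ : Γ, σ • w = (cycloChar p σ : ZMod p) • w := by
      intro σ
      -- `f σ` is the coboundary of `f σ₀ / (u - 1)`
      have hker : ∀ τ : Γ, cycloChar p τ = 1 → f τ = 0 := h
      have hcomm : f (σ * σ₀) = f (σ₀ * σ) := by
        have h2 : cycloChar p ((σ₀ * σ)⁻¹ * (σ * σ₀)) = 1 := by
          rw [map_mul, map_inv, map_mul, map_mul, mul_comm (cycloChar p σ), inv_mul_cancel]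
        have h3 := hcoc (σ₀ * σ) ((σ₀ * σ)⁻¹ * (σ * σ₀))
        rw [mul_inv_cancel_left, hker _ h2, h2] at h3
        simpa using h3
      rw [hcoc, hcoc, hσ₀] at hcomm
      have hfσ : f σ = f σ₀ * ((u : ZMod p) - 1)⁻¹ * ((cycloChar p σ : ZMod p) - 1) := by
        field_simp
        linear_combination hcomm
      simp only [w, smul_add, hfix, hact, hfσ]
      module
    refine hns ⟨Submodule.span (ZMod p) {w}, fun σ x hx => ?_, ?_⟩
    · obtain ⟨a, rfl⟩ := Submodule.mem_span_singleton.mp hx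
      rw [smul_comm, hw]
      exact Submodule.smul_mem _ _ (Submodule.smul_mem _ _ (Submodule.mem_span_singleton_self w))
    · refine isCompl_iff.mpr ⟨Submodule.disjoint_def.mpr fun x hxC hx => ?_, ?_⟩
      · obtain ⟨a, rfl⟩ := Submodule.mem_span_singleton.mp hx
        by_contra hax
        refine hwC ?_
        have ha : a ≠ 0 := fun h => hax (by simp [h])
        simpa [smul_smul, inv_mul_cancel₀ ha] using C.smul_mem a⁻¹ hxC
      · rw [codisjoint_iff, eq_top_iff]
        intro x _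
        obtain ⟨a, b, rfl⟩ := hgen x
        refine Submodule.mem_sup.mpr ⟨(b - a * (f σ₀ * ((u : ZMod p) - 1)⁻¹)) • c₀,
          C.smul_mem _ hc₀C, a • w, Submodule.smul_mem _ _ (Submodule.mem_span_singleton_self w), ?_⟩
        simp only [w]
        module
  · exact fun ℓ hℓ hℓp A hA σ hσ => htriv' σ (hadm.unramified_outside ℓ hℓ hℓp A hA σ hσ)
  · intro A hA σ hσ hχ
    obtain ⟨C', hC', hcompl⟩ := hadm.locally_split A hA
    refine (htriv' σ fun x => ?_).2
    obtain ⟨c, hc, d, hd, rfl⟩ := Submodule.mem_sup.mp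
      (hcompl.sup_eq_top ▸ Submodule.mem_top : x ∈ C ⊔ C')
    have h1 : σ • d - d ∈ C := by
      have := hchi σ d
      rwa [hχ, Units.val_one, one_smul] at this
    have h2 : σ • d - d = 0 :=
      Submodule.disjoint_def.mp hcompl.disjoint _ h1 (C'.sub_mem (hC' σ hσ d hd) hd)
    rw [smul_add, hadm.fixed_sub σ c hc, sub_eq_zero.mp h2]

end Fermat.Agent.ClassField.S14
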