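import Mathlib.NumberTheory.JacobiSum.Basic
import Mathlib.NumberTheory.NumberField.Cyclotomic.Galois
import Mathlib.NumberTheory.NumberField.ClassNumber
import Fermat.Prelude.Def_ClassGroup_GaloisAction

/-!
Stickelberger's theorem in the form needed for `S14`: a homomorphism from the class group of the
`p`-th cyclotomic field to `ZMod p` on which the Galois group acts through the inverse of the
cyclotomic character is zero. Primes of residue degree `> 1` are killed by equivariance alone, so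
only the factorisation of the Jacobi sum `J(χ, χ)` at primes of degree one is used.
-/

set_option autoImplicit false

noncomputable section

open NumberField Ideal
open scoped Pointwise nonZeroDivisors

namespace Fermat.Agent.ClassField.S14.Stickelberger

open IsCyclotomicExtension.Rat (galEquivZMod)

attribute [local instance] Ideal.Quotient.field

variable {p : ℕ} [hp : Fact p.Prime] (K : Type*) [Field K] [NumberField K]
  [IsCyclotomicExtension {p} ℚ K]

/-- The natural number in `[1, p)` attached to a Galois automorphism of the cyclotomic field. -/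
def galVal (σ : K ≃ₐ[ℚ] K) : ℕ := (galEquivZMod p K σ : ZMod p).val

theorem galVal_pos (σ : K ≃ₐ[ℚ] K) : 0 < galVal (p := p) K σ :=
  Nat.pos_of_ne_zero fun h => (galEquivZMod p K σ).ne_zero ((ZMod.val_eq_zero _).mp h)

theorem natCast_galVal (σ : K ≃ₐ[ℚ] K) :
    (galVal (p := p) K σ : ZMod p) = (galEquivZMod p K σ : ZMod p) := by
  rw [galVal, ZMod.natCast_val, ZMod.cast_id]

theorem smul_eq_pow (σ : K ≃ₐ[ℚ] K) {x : 𝓞 K} (hx : x = 0 ∨ x ^ p = 1) :
    σ • x = x ^ galVal (p := p) K σ := by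
  rcases hx with rfl | hx
  · rw [smul_zero, zero_pow (galVal_pos K σ).ne']
  · exact IsCyclotomicExtension.Rat.galEquivZMod_smul_of_pow_eq p K σ hx

omit [Fact p.Prime] [IsCyclotomicExtension {p} ℚ K] in
theorem absNorm_smul (σ : K ≃ₐ[ℚ] K) (I : Ideal (𝓞 K)) : absNorm (σ • I) = absNorm I := by
  rw [absNorm_apply, absNorm_apply, Submodule.cardQuot_apply, Submodule.cardQuot_apply]
  refine (Nat.card_congr (Ideal.quotientEquiv I (σ • I)
    (MulSemiringAction.toRingEquiv (K ≃ₐ[ℚ] K) (𝓞 K) σ) ?_).toEquiv).symm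
  rfl

omit [Fact p.Prime] [IsCyclotomicExtension {p} ℚ K] in
theorem norm_int_smul (σ : K ≃ₐ[ℚ] K) (x : 𝓞 K) :
    Algebra.norm ℤ (σ • x) = Algebra.norm ℤ x := by
  have h : (Algebra.norm ℤ (σ • x) : ℚ) = (Algebra.norm ℤ x : ℚ) := by
    rw [Algebra.coe_norm_int, Algebra.coe_norm_int]
    exact Algebra.norm_eq_of_algEquiv σ (x : K)
  exact_mod_cast h

section residue

variable (P : Ideal (𝓞 K)) [P.IsMaximal] [Fintype (𝓞 K ⧸ P)]

/-- The `p`-th power residue character modulo `P`. -/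
theorem exists_residueChar (h3 : 3 ≤ p) (hdvd : p ∣ Fintype.card (𝓞 K ⧸ P) - 1)
    (hcop : (absNorm P).Coprime p) :
    ∃ χ : MulChar (𝓞 K ⧸ P) (𝓞 K),
      (∀ x, Ideal.Quotient.mk P (χ x) = x ^ ((Fintype.card (𝓞 K ⧸ P) - 1) / p)) ∧
      (∀ x, χ x = 0 ∨ χ x ^ p = 1) ∧ χ ≠ 1 ∧ χ * χ ≠ 1 := by
  classical
  obtain ⟨m, hm⟩ := hdvd
  have hp0 : 0 < p := hp.out.pos
  have hq : 1 < Fintype.card (𝓞 K ⧸ P) := Fintype.one_lt_card
  have hm0 : 0 < m := by
    rcases Nat.eq_zero_or_pos m with rfl | h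
    · omega
    · exact h
  have hdiv : (Fintype.card (𝓞 K ⧸ P) - 1) / p = m := by
    rw [hm, Nat.mul_div_cancel_left _ hp0]
  simp only [hdiv]
  have hζ := IsCyclotomicExtension.zeta_spec p ℚ K
  have h₀ : IsPrimitiveRoot (Ideal.Quotient.mk P hζ.toInteger) p :=
    hζ.toInteger_isPrimitiveRoot.idealQuotient_mk
      (by simpa using IsMaximal.ne_top inferInstance) hcop
  obtain ⟨g, hg⟩ := IsCyclic.exists_generator (α := (𝓞 K ⧸ P)ˣ)
  have hcard : Fintype.card (𝓞 K ⧸ P)ˣ = p * m := by rw [Fintype.card_units, hm]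
  have hord : orderOf g = p * m := by
    rw [orderOf_eq_card_of_forall_mem_zpowers hg, Nat.card_eq_fintype_card, hcard]
  have hgp : ((g : 𝓞 K ⧸ P) ^ m) ^ p = 1 := by
    rw [← pow_mul, mul_comm, ← hord, ← Units.val_pow_eq_pow_val, pow_orderOf_eq_one, Units.val_one]
  obtain ⟨i, -, hi⟩ := h₀.eq_pow_of_pow_eq_one hgp
  set μ : (𝓞 K)ˣ := (hζ.toInteger_isPrimitiveRoot.isUnit hp0.ne').unit ^ i with hμdef
  have hμ : (μ : 𝓞 K) ^ p = 1 := by
    rw [hμdef, Units.val_pow_eq_pow_val, IsUnit.unit_spec, ← pow_mul, mul_comm, pow_mul,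
      hζ.toInteger_isPrimitiveRoot.pow_eq_one, one_pow]
  have hμmem : μ ∈ rootsOfUnity (Fintype.card (𝓞 K ⧸ P)ˣ) (𝓞 K) := by
    rw [mem_rootsOfUnity, hcard, pow_mul]
    ext
    simp [hμ]
  set χ := MulChar.ofRootOfUnity hμmem hg with hχdef
  have hχg : χ g = μ := MulChar.ofRootOfUnity_spec hμmem hg
  have hmk : Ideal.Quotient.mk P (μ : 𝓞 K) = (g : 𝓞 K ⧸ P) ^ m := by
    rw [hμdef, Units.val_pow_eq_pow_val, IsUnit.unit_spec, map_pow, hi]
  have hgen : ∀ x : 𝓞 K ⧸ P, x ≠ 0 → ∃ k : ℕ, x = (g : 𝓞 K ⧸ P) ^ k := by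
    intro x hx
    obtain ⟨k, hk⟩ := (isOfFinOrder_of_finite g).mem_powers_iff_mem_zpowers.mpr (hg (Units.mk0 x hx))
    refine ⟨k, ?_⟩
    rw [← Units.val_pow_eq_pow_val]
    exact (congrArg Units.val hk).symm
  refine ⟨χ, fun x => ?_, fun x => ?_, fun h => ?_, fun h => ?_⟩
  · rcases eq_or_ne x 0 with rfl | hx
    · rw [MulChar.map_zero, map_zero, zero_pow hm0.ne']
    · obtain ⟨k, rfl⟩ := hgen x hx
      rw [map_pow, hχg, map_pow, hmk, ← pow_mul, ← pow_mul, mul_comm]
  · rcases eq_or_ne x 0 with rfl | hx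
    · exact Or.inl (MulChar.map_zero _)
    · obtain ⟨k, rfl⟩ := hgen x hx
      right
      rw [map_pow, hχg, ← pow_mul, mul_comm, pow_mul, hμ, one_pow]
  · have h1 : (μ : 𝓞 K) = 1 := by rw [← hχg, h, MulChar.one_apply_coe]
    rw [h1, map_one] at hmk
    have h2 : g ^ m = 1 := Units.ext (by rw [Units.val_pow_eq_pow_val, ← hmk, Units.val_one])
    have h4 : p * m ≤ m := hord ▸ Nat.le_of_dvd hm0 (orderOf_dvd_of_pow_eq_one h2)
    have h5 := Nat.mul_le_mul_right m h3
    omega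
  · have h1 : (μ : 𝓞 K) * μ = 1 := by
      rw [← hχg, ← MulChar.mul_apply, h, MulChar.one_apply_coe]
    have h2 := congrArg (Ideal.Quotient.mk P) h1
    rw [map_mul, hmk, map_one, ← pow_add] at h2
    have h2' : g ^ (m + m) = 1 := Units.ext (by rw [Units.val_pow_eq_pow_val, h2, Units.val_one])
    have h4 : p * m ≤ m + m :=
      hord ▸ Nat.le_of_dvd (by omega) (orderOf_dvd_of_pow_eq_one h2')
    have h5 := Nat.mul_le_mul_right m h3
    omega

omit [NumberField K] [IsCyclotomicExtension {p} ℚ K] in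
theorem sum_pow_mul_one_sub_pow (n : ℕ) (hn : 2 * n < Fintype.card (𝓞 K ⧸ P) - 1) :
    ∑ x : 𝓞 K ⧸ P, x ^ n * (1 - x) ^ n = 0 := by
  calc ∑ x : 𝓞 K ⧸ P, x ^ n * (1 - x) ^ n
      = ∑ x : 𝓞 K ⧸ P, ∑ k ∈ Finset.range (n + 1), (-1) ^ k * (n.choose k : 𝓞 K ⧸ P) * x ^ (n + k) := by
        refine Finset.sum_congr rfl fun x _ => ?_
        rw [sub_eq_neg_add, add_pow, Finset.mul_sum]
        refine Finset.sum_congr rfl fun k _ => ?_
        rw [neg_pow, one_pow, pow_add]
        ring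
    _ = 0 := by
        rw [Finset.sum_comm]
        refine Finset.sum_eq_zero fun k hk => ?_
        rw [← Finset.mul_sum, FiniteField.sum_pow_lt_card_sub_one, mul_zero]
        have := Finset.mem_range.mp hk
        omega

/-- The Jacobi sum lies in `σ⁻¹ • P` for the automorphisms `σ` in the first half. -/
theorem smul_jacobiSum_mem (χ : MulChar (𝓞 K ⧸ P) (𝓞 K))
    (hmk : ∀ x, Ideal.Quotient.mk P (χ x) = x ^ ((Fintype.card (𝓞 K ⧸ P) - 1) / p))
    (hroot : ∀ x, χ x = 0 ∨ χ x ^ p = 1) (hdvd : p ∣ Fintype.card (𝓞 K ⧸ P) - 1)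
    (σ : K ≃ₐ[ℚ] K) (hσ : 2 * galVal (p := p) K σ < p) :
    σ • jacobiSum χ χ ∈ P := by
  rw [← Ideal.Quotient.eq_zero_iff_mem, jacobiSum, Finset.smul_sum, map_sum]
  have key : ∀ x, Ideal.Quotient.mk P (σ • (χ x * χ (1 - x))) =
      x ^ ((Fintype.card (𝓞 K ⧸ P) - 1) / p * galVal (p := p) K σ) *
      (1 - x) ^ ((Fintype.card (𝓞 K ⧸ P) - 1) / p * galVal (p := p) K σ) := by
    intro x
    rw [smul_mul', smul_eq_pow K σ (hroot x), smul_eq_pow K σ (hroot (1 - x)), map_mul, map_pow,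
      map_pow, hmk, hmk, ← pow_mul, ← pow_mul]
  simp only [key]
  apply sum_pow_mul_one_sub_pow
  obtain ⟨m, hm⟩ := hdvd
  have hq : 1 < Fintype.card (𝓞 K ⧸ P) := Fintype.one_lt_card
  rw [hm, Nat.mul_div_cancel_left _ hp.out.pos]
  have hm0 : 0 < m := by
    rcases Nat.eq_zero_or_pos m with rfl | h
    · omega
    · exact h
  calc 2 * (m * galVal (p := p) K σ) = (2 * galVal (p := p) K σ) * m := by ring
    _ < p * m := Nat.mul_lt_mul_of_pos_right hσ hm0

/-- `J(χ, χ)` times its complex conjugate is the cardinality of the residue field. -/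
theorem jacobiSum_mul_conj (χ : MulChar (𝓞 K ⧸ P) (𝓞 K))
    (hroot : ∀ x, χ x = 0 ∨ χ x ^ p = 1) (h₁ : χ ≠ 1) (h₂ : χ * χ ≠ 1) :
    jacobiSum χ χ * ((galEquivZMod p K).symm (-1) • jacobiSum χ χ) =
      (Fintype.card (𝓞 K ⧸ P) : 𝓞 K) := by
  classical
  set τ := (galEquivZMod p K).symm (-1) with hτ
  have hv : galVal (p := p) K τ + 1 = p := by
    have h : (galVal (p := p) K τ + 1 : ZMod p) = 0 := by
      rw [natCast_galVal, hτ, MulEquiv.apply_symm_apply]
      simp
    have hlt : galVal (p := p) K τ < p := ZMod.val_lt _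
    rw [← Nat.cast_one, ← Nat.cast_add, ZMod.natCast_eq_zero_iff] at h
    have := Nat.le_of_dvd (by omega) h
    omega
  have hconj : ∀ x, τ • χ x = χ⁻¹ x := by
    intro x
    rw [smul_eq_pow K τ (hroot x)]
    rcases eq_or_ne x 0 with rfl | hx
    · rw [MulChar.map_zero, MulChar.map_zero, zero_pow (galVal_pos K τ).ne']
    · have hu : IsUnit (χ x) := (isUnit_iff_ne_zero.mpr hx).map χ
      refine hu.mul_right_cancel ?_
      rw [← pow_succ, hv, ← MulChar.mul_apply, inv_mul_cancel,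
        MulChar.one_apply (isUnit_iff_ne_zero.mpr hx)]
      exact (hroot x).resolve_left hu.ne_zero
  have hJ : τ • jacobiSum χ χ = jacobiSum χ⁻¹ χ⁻¹ := by
    simp only [jacobiSum, Finset.smul_sum, smul_mul', hconj]
  have hinj : Function.Injective (algebraMap (𝓞 K) K) := RingOfIntegers.coe_injective
  apply hinj
  rw [hJ, map_mul, map_natCast, ← jacobiSum_ringHomComp, ← jacobiSum_ringHomComp,
    ← MulChar.ringHomComp_inv]
  refine jacobiSum_mul_jacobiSum_inv ?_ ((MulChar.ringHomComp_ne_one_iff hinj).mpr h₁)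
    ((MulChar.ringHomComp_ne_one_iff hinj).mpr h₁) ?_
  · rw [ringChar.eq_zero]
    exact (CharP.ringChar_ne_zero_of_finite _).symm
  · rw [← MulChar.ringHomComp_mul]
    exact (MulChar.ringHomComp_ne_one_iff hinj).mpr h₂

end residue

section main

variable (f : Ideal (𝓞 K) → ZMod p)

/-- An additive function on ideals, zero on principal ideals, which is an eigenvector of the
Galois group for the inverse cyclotomic character, vanishes at every prime. -/
theorem apply_prime_eq_zero (h3 : 3 ≤ p)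
    (hmul : ∀ I J : Ideal (𝓞 K), I ≠ ⊥ → J ≠ ⊥ → f (I * J) = f I + f J)
    (hprinc : ∀ x : 𝓞 K, x ≠ 0 → f (span {x}) = 0)
    (heig : ∀ (σ : K ≃ₐ[ℚ] K) (P : Ideal (𝓞 K)), P.IsPrime → P ≠ ⊥ →
      (galEquivZMod p K σ : ZMod p) * f (σ • P) = f P)
    (P : Ideal (𝓞 K)) (hP : P.IsPrime) (hP0 : P ≠ ⊥) : f P = 0 := by
  classical
  have hPmax : P.IsMaximal := hP.isMaximal hP0
  obtain ⟨ℓ, hℓ, hPℓ⟩ : ∃ ℓ : ℕ, ℓ.Prime ∧ P.LiesOver (span {(ℓ : ℤ)}) := by
    obtain ⟨z, hz⟩ := (IsPrincipalIdealRing.principal (P.under ℤ)).principal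
    have hmem : P.under ℤ = span {(z.natAbs : ℤ)} := by
      rw [hz, Int.span_natAbs]
    have hne : P.under ℤ ≠ ⊥ := Ideal.under_ne_bot ℤ hP0
    refine ⟨z.natAbs, ?_, ⟨hmem.symm⟩⟩
    have hpr : (span {(z.natAbs : ℤ)}).IsPrime := hmem ▸ (inferInstance : (P.under ℤ).IsPrime)
    have hz0 : (z.natAbs : ℤ) ≠ 0 := fun h => hne (by rw [hmem, h]; simp)
    exact Nat.prime_iff_prime_int.mpr ((span_singleton_prime hz0).mp hpr)
  have : Fact ℓ.Prime := ⟨hℓ⟩
  have hζ := IsCyclotomicExtension.zeta_spec p ℚ K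
  by_cases hℓp : ℓ = p
  · subst hℓp
    rw [IsCyclotomicExtension.Rat.eq_span_zeta_sub_one_of_liesOver' ℓ K hζ P]
    exact hprinc _ hζ.zeta_sub_one_prime'.ne_zero
  have hcop : ℓ.Coprime p := (Nat.coprime_primes hℓ hp.out).mpr hℓp
  have hstab := IsCyclotomicExtension.Rat.galEquivZMod_stabilizer p K ℓ P hcop
  by_cases hℓ1 : (ℓ : ZMod p) = 1
  swap
  · -- residue degree > 1: the decomposition group moves `f`
    set σ := (galEquivZMod p K).symm (ZMod.unitOfCoprime ℓ hcop) with hσ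
    have hmem : σ • P = P := by
      have h : ZMod.unitOfCoprime ℓ hcop ∈
          (galEquivZMod p K).mapSubgroup (MulAction.stabilizer (K ≃ₐ[ℚ] K) P) :=
        hstab ▸ Subgroup.mem_zpowers _
      rw [MulEquiv.mapSubgroup_apply] at h
      obtain ⟨τ, hτ, hτe⟩ := h
      have hτσ : σ = τ := by rw [hσ, ← hτe]; exact MulEquiv.symm_apply_apply _ _
      rw [hτσ]
      exact hτ
    have h := heig σ P hP hP0
    rw [hmem, hσ, MulEquiv.apply_symm_apply, ZMod.coe_unitOfCoprime] at h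
    have h' : ((ℓ : ZMod p) - 1) * f P = 0 := by rw [sub_mul, h, one_mul, sub_self]
    exact (mul_eq_zero.mp h').resolve_left (sub_ne_zero.mpr hℓ1)
  -- residue degree one
  have hPab : absNorm P = ℓ := by
    rw [← pow_inertiaDeg ℓ, IsCyclotomicExtension.Rat.inertiaDeg_eq_of_not_dvd ℓ K P (m := p)
      (fun h => hℓp ((Nat.prime_dvd_prime_iff_eq hℓ hp.out).mp h)), hℓ1, orderOf_one, pow_one]
  have : Finite (𝓞 K ⧸ P) := Ring.HasFiniteQuotients.finiteQuotient hP0
  let : Fintype (𝓞 K ⧸ P) := Fintype.ofFinite _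
  have hcard : Fintype.card (𝓞 K ⧸ P) = ℓ := by
    rw [← Nat.card_eq_fintype_card]
    exact hPab ▸ rfl
  have hdvd : p ∣ Fintype.card (𝓞 K ⧸ P) - 1 := by
    rw [hcard, ← ZMod.natCast_eq_zero_iff, Nat.cast_sub hℓ.one_le, hℓ1]
    simp
  have hfree : ∀ σ : K ≃ₐ[ℚ] K, σ • P = P → σ = 1 := by
    intro σ hσ
    have h := IsCyclotomicExtension.Rat.mem_zpowers_galEquivZMod_of_mem_stabilizer p K ℓ P hcop
      (σ := σ) hσ
    have h1 : ZMod.unitOfCoprime ℓ hcop = 1 :=
      Units.ext (by rw [ZMod.coe_unitOfCoprime, hℓ1, Units.val_one])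
    rw [h1, Subgroup.zpowers_one_eq_bot, Subgroup.mem_bot, EmbeddingLike.map_eq_one_iff] at h
    exact h
  obtain ⟨χ, hmk, hroot, hχ1, hχ2⟩ :=
    exists_residueChar K P h3 hdvd (by rw [hPab]; exact hcop)
  set J := jacobiSum χ χ with hJdef
  set τ := (galEquivZMod p K).symm (-1) with hτ
  have hJJ : J * (τ • J) = (ℓ : 𝓞 K) := by
    rw [hJdef, hτ, jacobiSum_mul_conj K P χ hroot hχ1 hχ2, hcard]
  have hJ0 : J ≠ 0 := by
    intro h
    rw [h, zero_mul] at hJJ
    exact hℓ.ne_zero (Nat.cast_eq_zero.mp hJJ.symm)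
  obtain ⟨h, hh⟩ := hp.out.odd_of_ne_two (by omega)
  -- the norm of the Jacobi sum
  have hJnorm : absNorm (span {J}) = ℓ ^ h := by
    have h1 := congrArg (fun x => (Algebra.norm ℤ x).natAbs) hJJ
    simp only [map_mul, norm_int_smul, Int.natAbs_mul] at h1
    have h2 : Algebra.norm ℤ (ℓ : 𝓞 K) = (ℓ : ℤ) ^ (2 * h) := by
      rw [← map_natCast (algebraMap ℤ (𝓞 K)), Algebra.norm_algebraMap, RingOfIntegers.rank,
        IsCyclotomicExtension.Rat.finrank p K, Nat.totient_prime hp.out]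
      congr 1
      omega
    rw [h2, Int.natAbs_pow, Int.natAbs_natCast, ← absNorm_span_singleton, mul_comm 2 h, pow_mul,
      ← sq] at h1
    exact Nat.pow_left_injective two_ne_zero h1
  -- the automorphisms of the first half
  have hs : ∀ c ∈ Finset.Icc 1 h, ∃ σ : K ≃ₐ[ℚ] K, galVal (p := p) K σ = c := by
    intro c hc
    rw [Finset.mem_Icc] at hc
    have hc' : c.Coprime p :=
      Nat.coprime_comm.mp (hp.out.coprime_iff_not_dvd.mpr fun hd => by
        have := Nat.le_of_dvd (by omega) hd; omega)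
    refine ⟨(galEquivZMod p K).symm (ZMod.unitOfCoprime c hc'), ?_⟩
    rw [galVal, MulEquiv.apply_symm_apply, ZMod.coe_unitOfCoprime, ZMod.val_natCast,
      Nat.mod_eq_of_lt (by omega)]
  choose! s hs using hs
  set Q : ℕ → Ideal (𝓞 K) := fun c => (s c)⁻¹ • P with hQ
  have hQinj : Set.InjOn Q (Finset.Icc 1 h) := by
    intro a ha b hb hab
    simp only [hQ] at hab
    have hab' : ((s a) * (s b)⁻¹) • P = P := by rw [mul_smul, ← hab, smul_inv_smul]
    have := mul_inv_eq_one.mp (hfree _ hab')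
    rw [← hs a ha, ← hs b hb, this]
  have hQp : ∀ c, (Q c).IsPrime := fun c => inferInstanceAs ((s c)⁻¹ • P).IsPrime
  have hQ0 : ∀ c, Q c ≠ ⊥ := fun c hc => hP0 (by
    rw [← smul_inv_smul (s c) P]; exact (congrArg (s c • ·) hc).trans (Ideal.smul_bot _))
  have hdiv : (∏ c ∈ Finset.Icc 1 h, Q c) ∣ span {J} := by
    rw [← Finset.prod_image (f := fun I => I) hQinj]
    refine Finset.prod_primes_dvd _ (fun I hI => ?_) (fun I hI => ?_)
    · obtain ⟨c, -, rfl⟩ := Finset.mem_image.mp hI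
      exact (Ideal.prime_iff_isPrime (hQ0 c)).mpr (hQp c)
    · obtain ⟨c, hc, rfl⟩ := Finset.mem_image.mp hI
      rw [Ideal.dvd_iff_le, span_singleton_le_iff_mem, hQ, Ideal.mem_inv_pointwise_smul_iff]
      refine smul_jacobiSum_mem K P χ hmk hroot hdvd _ ?_
      have := Finset.mem_Icc.mp hc
      rw [hs c hc]
      omega
  have heq : span {J} = ∏ c ∈ Finset.Icc 1 h, Q c := by
    obtain ⟨B, hB⟩ := hdiv
    have hn := congrArg absNorm hB
    rw [hJnorm, map_mul, map_prod] at hn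
    simp only [hQ, absNorm_smul, hPab, Finset.prod_const, Nat.card_Icc, Nat.add_sub_cancel] at hn
    have hB1 : B = ⊤ := absNorm_eq_one_iff.mp
      ((Nat.eq_of_mul_eq_mul_left (pow_pos hℓ.pos h) ((mul_one _).trans hn)).symm)
    rw [hB, hB1, Ideal.mul_top]
  have hftop : f ⊤ = 0 := by simpa using hprinc 1 one_ne_zero
  have hfprod : ∀ t : Finset ℕ, f (∏ c ∈ t, Q c) = ∑ c ∈ t, f (Q c) := by
    intro t
    induction t using Finset.induction_on with
    | empty => simpa [Ideal.one_eq_top] using hftop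
    | insert a t ha ih =>
      rw [Finset.prod_insert ha, Finset.sum_insert ha,
        hmul _ _ (hQ0 a) (Finset.prod_ne_zero_iff.mpr fun c _ => hQ0 c), ih]
  have hfQ : ∀ c ∈ Finset.Icc 1 h, f (Q c) = (c : ZMod p) * f P := by
    intro c hc
    have := heig (s c) (Q c) (hQp c) (hQ0 c)
    simp only [hQ, smul_inv_smul] at this
    rw [← this, ← natCast_galVal, hs c hc]
  have hzero := hprinc J hJ0
  rw [heq, hfprod, Finset.sum_congr rfl hfQ, ← Finset.sum_mul] at hzero
  refine (mul_eq_zero.mp hzero).resolve_left fun hsum => ?_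
  have hsum' : ∑ c ∈ Finset.Icc 1 h, c = ∑ c ∈ Finset.range (h + 1), c := by
    refine Finset.sum_subset (fun c hc => ?_) fun c hc hc' => ?_
    · have := Finset.mem_Icc.mp hc
      exact Finset.mem_range.mpr (by omega)
    · have := Finset.mem_range.mp hc
      rw [Finset.mem_Icc] at hc'
      omega
  rw [← Nat.cast_sum, ZMod.natCast_eq_zero_iff, hsum'] at hsum
  have hdvd2 : p ∣ (h + 1) * h := by
    have h2 := Finset.sum_range_id_mul_two (h + 1)
    rw [Nat.add_sub_cancel] at h2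
    exact h2 ▸ hsum.mul_right 2
  rcases hp.out.dvd_mul.mp hdvd2 with h' | h'
  · have := Nat.le_of_dvd (by omega) h'
    omega
  · have := Nat.le_of_dvd (by omega) h'
    omega

/-- A homomorphism from the class group of the `p`-th cyclotomic field to `ZMod p` on which the
Galois group acts through the inverse of the cyclotomic character is zero. -/
theorem classGroupHom_eq_zero (h3 : 3 ≤ p) (φ : Additive (ClassGroup (𝓞 K)) →+ ZMod p)
    (heig : ∀ (σ : K ≃ₐ[ℚ] K) (I J : (Ideal (𝓞 K))⁰), (I : Ideal (𝓞 K)).IsPrime →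
      (J : Ideal (𝓞 K)) = σ • (I : Ideal (𝓞 K)) →
      (galEquivZMod p K σ : ZMod p) * φ (Additive.ofMul (ClassGroup.mk0 J)) =
        φ (Additive.ofMul (ClassGroup.mk0 I))) :
    φ = 0 := by
  classical
  set f : Ideal (𝓞 K) → ZMod p := fun I =>
    if h : I ≠ ⊥ then φ (Additive.ofMul (ClassGroup.mk0
      (⟨I, mem_nonZeroDivisors_iff_ne_zero.mpr h⟩ : (Ideal (𝓞 K))⁰))) else 0 with hf
  have hfI : ∀ I : (Ideal (𝓞 K))⁰, f I = φ (Additive.ofMul (ClassGroup.mk0 I)) := fun I => by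
    simp only [hf]
    rw [dif_pos]
    exact mem_nonZeroDivisors_iff_ne_zero.mp I.2
  have hmul : ∀ I J : Ideal (𝓞 K), I ≠ ⊥ → J ≠ ⊥ → f (I * J) = f I + f J := by
    intro I J hI hJ
    have := hfI (⟨I, mem_nonZeroDivisors_iff_ne_zero.mpr hI⟩ *
      ⟨J, mem_nonZeroDivisors_iff_ne_zero.mpr hJ⟩)
    rw [map_mul, ofMul_mul, map_add, ← hfI, ← hfI] at this
    simpa using this
  have hprinc : ∀ x : 𝓞 K, x ≠ 0 → f (span {x}) = 0 := by
    intro x hx
    have hx' : span {x} ∈ (Ideal (𝓞 K))⁰ :=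
      mem_nonZeroDivisors_iff_ne_zero.mpr (by simpa [Ideal.zero_eq_bot] using hx)
    have hpr := (ClassGroup.mk0_eq_one_iff hx').mpr ⟨⟨x, rfl⟩⟩
    have := hfI ⟨_, hx'⟩
    rw [hpr, ofMul_one, map_zero] at this
    exact this
  have hprime : ∀ P : Ideal (𝓞 K), P.IsPrime → P ≠ ⊥ → f P = 0 := by
    refine apply_prime_eq_zero K f h3 hmul hprinc fun σ P hP hP0 => ?_
    have hσ0 : σ • P ≠ ⊥ := fun h => hP0 (by rw [← inv_smul_smul σ P, h, Ideal.smul_bot])
    have := heig σ ⟨P, mem_nonZeroDivisors_iff_ne_zero.mpr hP0⟩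
      ⟨σ • P, mem_nonZeroDivisors_iff_ne_zero.mpr hσ0⟩ hP rfl
    rwa [← hfI, ← hfI] at this
  have hall : ∀ I : Ideal (𝓞 K), I ≠ ⊥ → f I = 0 := by
    intro I
    induction I using UniqueFactorizationMonoid.induction_on_prime with
    | h₁ => exact fun h => absurd rfl h
    | h₂ x hx =>
      intro _
      rw [Ideal.isUnit_iff.mp hx]
      simpa using hprinc 1 one_ne_zero
    | h₃ a P ha hP ih =>
      intro _
      have hP0 : P ≠ ⊥ := hP.ne_zero
      rw [hmul P a hP0 ha, hprime P (Ideal.isPrime_of_prime hP) hP0, ih ha, add_zero]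
  refine AddMonoidHom.ext fun C => ?_
  obtain ⟨C, rfl⟩ := Additive.ofMul.surjective C
  obtain ⟨I, rfl⟩ := ClassGroup.mk0_surjective C
  rw [← hfI, hall _ (mem_nonZeroDivisors_iff_ne_zero.mp I.2), AddMonoidHom.zero_apply]

end main

end Fermat.Agent.ClassField.S14.Stickelberger

namespace Fermat.Agent.ClassField.S14

/-- An `ω⁻¹`-eigen functional on the class group of `ℚ(ζ_p)` vanishes (Stickelberger). -/
theorem eq_zero_of_omega_inv (p : ℕ) [Fact p.Prime] (hp2 : p ≠ 2) (K : Type*) [Field K] [NumberField K]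
    [IsCyclotomicExtension {p} ℚ K] (φ : Additive (ClassGroup (𝓞 K)) →+ ZMod p)
    (h : ∀ (d : (ZMod p)ˣ) (P : (Ideal (𝓞 K))⁰),
      (d : ZMod p) * φ (Additive.ofMul (ClassGroup.mk0 (Ideal.mapNonZero (JacobiSumStickelberger.clRingAction p K d) P))) = φ (Additive.ofMul (ClassGroup.mk0 P))) :
    φ = 0 := by
  have h3 : 3 ≤ p := by
    have := (Fact.out : p.Prime).two_le
    omega
  refine Stickelberger.classGroupHom_eq_zero K h3 φ fun σ I J _ hJ => ?_
  set d := IsCyclotomicExtension.Rat.galEquivZMod p K σ with hd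
  have hJ' : J = Ideal.mapNonZero (JacobiSumStickelberger.clRingAction p K d) I := by
    refine Subtype.ext ?_
    rw [hJ, Ideal.coe_mapNonZero, Ideal.pointwise_smul_def]
    refine congrArg (fun e : 𝓞 K →+* 𝓞 K => Ideal.map e (I : Ideal (𝓞 K))) ?_
    refine RingHom.ext fun x => RingOfIntegers.coe_injective ?_
    rw [MulSemiringAction.toRingHom_apply]
    have hσ : (JacobiSumStickelberger.cycloGalEquiv p K).symm d = σ :=
      MulEquiv.symm_apply_apply _ σ
    show σ (x : K) = algebraMap (𝓞 K) K (JacobiSumStickelberger.clRingAction p K d x)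
    rw [JacobiSumStickelberger.clRingAction, MonoidHom.comp_apply, MulEquiv.toMonoidHom_eq_coe,
      MonoidHom.coe_coe, hσ, galRestrictionDatum_apply, algebraMap_galRestrict_apply]
  rw [hJ']
  exact h d I

end Fermat.Agent.ClassField.S14
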