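import Fermat.Agent.ClassField.S14.Equivariance
import Fermat.Agent.ClassField.UnramifiedReciprocity
import Fermat.Agent.ClassField.S14.Stickelberger

/-!
No unramified eigen-character exists: reciprocity gives a functional on the class group of the
cyclotomic field which Stickelberger's theorem kills.
-/

set_option autoImplicit false

noncomputable section

open scoped Pointwise NumberField nonZeroDivisors

namespace Fermat.Agent.ClassField.S14

open ExtCitation IntermediateField JacobiSumStickelberger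

local notation "Qb" => AlgebraicClosure ℚ

variable {p : ℕ} [Fact p.Prime]

local instance : NeZero p := ⟨(Fact.out : p.Prime).ne_zero⟩

/-- The cyclotomic class-group action raises a primitive root to the given exponent. -/
theorem cycloGalEquiv_symm_apply (d : (ZMod p)ˣ) {K : Type*} [Field K] [NumberField K]
    [IsCyclotomicExtension {p} ℚ K] {μ : K} (hμ : μ ^ p = 1) :
    (cycloGalEquiv p K).symm d μ = μ ^ (d : ZMod p).val := by
  have hζ := IsCyclotomicExtension.zeta_spec p ℚ K
  obtain ⟨i, -, rfl⟩ := hζ.eq_pow_of_pow_eq_one hμ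
  have h1 := hζ.autToPow_spec ℚ ((cycloGalEquiv p K).symm d)
  have h2 : hζ.autToPow ℚ ((cycloGalEquiv p K).symm d) = d :=
    (cycloGalEquiv p K).apply_symm_apply d
  rw [h2] at h1
  rw [map_pow, ← h1, ← pow_mul, ← pow_mul, mul_comm]

theorem UnramifiedEigenCharacter.false (h3 : 3 ≤ p) (ψ : UnramifiedEigenCharacter p) : False := by
  have hp2 : p ≠ 2 := by omega
  let ζK : cycloField p := ⟨zetaP p, mem_adjoin_simple_self ℚ _⟩
  have hζK : IsPrimitiveRoot ζK p :=
    IsPrimitiveRoot.of_map_of_injective (f := (cycloField p).val) (zetaP_spec p) Subtype.val_injective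
  obtain ⟨φ, hφ0, hφ⟩ := exists_classGroup_frobenius_hom (L := ψ.field) hp2 hζK ψ.finrank_field
    fun Q hQ hQ' => by
      have : Q.IsMaximal := hQ'.isMaximal hQ
      exact ψ.inertia_eq_bot Q
  let Φ : Additive (ClassGroup (𝓞 (cycloField p))) →+ ZMod p :=
    ψ.galEquiv.toAddMonoidHom.comp φ
  refine hφ0 (AddMonoidHom.ext fun x => ψ.galEquiv.injective ?_)
  rw [AddMonoidHom.zero_apply, map_zero]
  refine DFunLike.congr_fun (eq_zero_of_omega_inv p hp2 (cycloField p) Φ ?_) x
  intro d
  -- both sides are additive, so it suffices to treat primes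
  suffices h : ∀ P : (Ideal (𝓞 (cycloField p)))⁰, (P : Ideal (𝓞 (cycloField p))).IsPrime →
      (d : ZMod p) * Φ (Additive.ofMul (ClassGroup.mk0
        (Ideal.mapNonZero (clRingAction p (cycloField p) d) P))) =
        Φ (Additive.ofMul (ClassGroup.mk0 P)) by
    rintro ⟨I, hI⟩
    induction I using UniqueFactorizationMonoid.induction_on_prime with
    | h₁ => exact absurd rfl (mem_nonZeroDivisors_iff_ne_zero.mp hI)
    | h₂ I hu =>
      have h1 : (⟨I, hI⟩ : (Ideal (𝓞 (cycloField p)))⁰) = 1 := Subtype.ext (isUnit_iff_eq_one.mp hu)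
      have h2 : Ideal.mapNonZero (clRingAction p (cycloField p) d) 1 = 1 :=
        Subtype.ext (by simp [Ideal.one_eq_top, Ideal.map_top])
      rw [h1, h2]
      simp
    | h₃ I P hI0 hP ih =>
      have hP0 : P ∈ (Ideal (𝓞 (cycloField p)))⁰ := mem_nonZeroDivisors_iff_ne_zero.mpr hP.ne_zero
      have hI' : I ∈ (Ideal (𝓞 (cycloField p)))⁰ := mem_nonZeroDivisors_iff_ne_zero.mpr hI0
      have h1 : (⟨P * I, hI⟩ : (Ideal (𝓞 (cycloField p)))⁰) = ⟨P, hP0⟩ * ⟨I, hI'⟩ := rfl
      have h2 : Ideal.mapNonZero (clRingAction p (cycloField p) d) (⟨P, hP0⟩ * ⟨I, hI'⟩) =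
          Ideal.mapNonZero (clRingAction p (cycloField p) d) ⟨P, hP0⟩ *
            Ideal.mapNonZero (clRingAction p (cycloField p) d) ⟨I, hI'⟩ :=
        Subtype.ext (Ideal.map_mul _ _ _)
      rw [h1, h2]
      simp only [_root_.map_mul, ofMul_mul, map_add, mul_add]
      rw [ih hI', h ⟨P, hP0⟩ (Ideal.isPrime_of_prime hP)]
  intro P hP
  let g : ψ.field ≃ₐ[ℚ] ψ.field :=
    AlgEquiv.liftNormal ((cycloGalEquiv p (cycloField p)).symm d) ψ.field
  have hg : ∀ x : cycloField p, g (algebraMap (cycloField p) ψ.field x) =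
      algebraMap (cycloField p) ψ.field ((cycloGalEquiv p (cycloField p)).symm d x) :=
    fun x => AlgEquiv.liftNormal_commutes _ ψ.field x
  have hgζ : g ψ.zeta = ψ.zeta ^ (d : ZMod p).val := by
    refine (hg ζK).trans ?_
    rw [cycloGalEquiv_symm_apply d hζK.pow_eq_one, _root_.map_pow]
    rfl
  have hres : ψ.restrictCyclo g = (cycloGalEquiv p (cycloField p)).symm d :=
    AlgEquiv.ext fun x => (algebraMap (cycloField p) ψ.field).injective
      ((ψ.restrictCyclo_commutes g x).trans (hg x))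
  -- a prime over `P` and a Frobenius element
  have hP0 : (P : Ideal (𝓞 (cycloField p))) ≠ ⊥ := mem_nonZeroDivisors_iff_ne_zero.mp P.2
  have hPmax : (P : Ideal (𝓞 (cycloField p))).IsMaximal := hP.isMaximal hP0
  obtain ⟨Q, hQmax, hQP⟩ := Ideal.exists_ideal_over_maximal_of_isIntegral (S := 𝓞 ψ.field)
    (P : Ideal (𝓞 (cycloField p))) (by
      rw [(RingHom.injective_iff_ker_eq_bot (algebraMap (𝓞 (cycloField p)) (𝓞 ψ.field))).mp
        (FaithfulSMul.algebraMap_injective _ _)]
      exact bot_le)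
  have hQ0 : Q ≠ ⊥ := fun h => hP0 (by
    rw [← hQP, h]
    exact Ideal.under_bot _ _)
  have : Q.LiesOver (P : Ideal (𝓞 (cycloField p))) := ⟨hQP.symm⟩
  have hgQmax : (g • Q).IsMaximal :=
    (show (g • Q).IsPrime from inferInstance).isMaximal fun h => hQ0 (smul_left_cancel g (by
      rw [h, ← Ideal.zero_eq_bot, smul_zero]))
  have hgQ : (g • Q).LiesOver
      ((Ideal.mapNonZero (clRingAction p (cycloField p) d) P : Ideal (𝓞 (cycloField p)))) := ⟨by
    rw [ψ.under_smul, hres, Ideal.coe_mapNonZero, Ideal.pointwise_smul_def, ← hQP]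
    refine congrArg (fun f => Ideal.map f _) (RingHom.ext fun x => NumberField.RingOfIntegers.ext ?_)
    exact algebraMap_galRestrict_apply ℤ ((cycloGalEquiv p (cycloField p)).symm d) x⟩
  have := Ring.HasFiniteQuotients.finiteQuotient (R := 𝓞 ψ.field) hQ0
  obtain ⟨τ, hτ⟩ := IsArithFrobAt.exists_of_isInvariant (G := ψ.field ≃ₐ[cycloField p] ψ.field)
    (R := 𝓞 (cycloField p)) (Q := Q)
  have hgQ0 : g • Q ≠ ⊥ := fun h => hQ0 (smul_left_cancel g (by
    rw [h, ← Ideal.zero_eq_bot, smul_zero]))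
  have := Ring.HasFiniteQuotients.finiteQuotient (R := 𝓞 ψ.field) hgQ0
  obtain ⟨τ', hτ'⟩ := IsArithFrobAt.exists_of_isInvariant (G := ψ.field ≃ₐ[cycloField p] ψ.field)
    (R := 𝓞 (cycloField p)) (Q := g • Q)
  show (d : ZMod p) * ψ.galEquiv (φ _) = ψ.galEquiv (φ _)
  rw [hφ P Q τ inferInstance inferInstance hτ, hφ _ (g • Q) τ' inferInstance hgQ hτ',
    ψ.galEquiv_apply, ψ.galEquiv_apply, ← ZMod.natCast_zmod_val (d : ZMod p)]
  exact ψ.galChar_frob_smul g hτ hτ' hgζ

end Fermat.Agent.ClassField.S14
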