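import Fermat.Agent.ClassField.S14.Extension
import Mathlib.RingTheory.Frobenius

/-!
Equivariance of the character on the Galois group of the extension, and of Frobenius elements,
under the Galois group of the extension over `ℚ`.
-/

set_option autoImplicit false

noncomputable section

open scoped Pointwise NumberField

namespace Fermat.Agent.ClassField.S14

open ExtCitation IntermediateField

local notation "Qb" => AlgebraicClosure ℚ
local notation "Γ" => (AlgebraicClosure ℚ ≃ₐ[ℚ] AlgebraicClosure ℚ)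

local instance : Algebra.IsAlgebraic ℚ Qb := AlgebraicClosure.isAlgebraic ℚ
local instance : IsAlgClosure ℚ Qb := ⟨inferInstance, inferInstance⟩
local instance : IsGalois ℚ Qb := IsAlgClosure.isGalois ℚ Qb

variable {p : ℕ} [Fact p.Prime]

local instance : NeZero p := ⟨(Fact.out : p.Prime).ne_zero⟩

namespace UnramifiedEigenCharacter

variable (ψ : UnramifiedEigenCharacter p)

/-- Conjugation by an automorphism sending `ζ` to `ζ ^ c` divides the character by `c`. -/
theorem galChar_conj (g : ψ.field ≃ₐ[ℚ] ψ.field)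
    (τ τ' : ψ.field ≃ₐ[cycloField p] ψ.field) (hconj : ∀ x, τ' (g x) = g (τ x))
    {c : ℕ} (hg : g ψ.zeta = ψ.zeta ^ c) :
    (c : ZMod p) * ψ.galChar τ' = ψ.galChar τ := by
  let σ : Γ := g.liftNormal Qb
  have hσ : ∀ x : ψ.field, σ x = g x := fun x => AlgEquiv.liftNormal_commutes g Qb x
  have hc : (cycloChar p σ : ZMod p) = (c : ZMod p) := by
    have h1 : σ (zetaP p) = zetaP p ^ c :=
      (hσ ψ.zeta).trans (congrArg Subtype.val hg)
    rw [apply_zetaP] at h1
    rw [← pow_mod_orderOf (zetaP p) c, ← (zetaP_spec p).eq_orderOf] at h1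
    rw [← ZMod.natCast_zmod_val (cycloChar p σ : ZMod p),
      (zetaP_spec p).pow_inj (ZMod.val_lt _) (Nat.mod_lt _ (Nat.pos_of_neZero p)) h1,
      ZMod.natCast_mod]
  obtain ⟨a, ha, ha'⟩ := ψ.exists_lift τ
  rw [ψ.galChar_eq ha ha', ← ψ.conj σ a ha, hc]
  congr 1
  refine ψ.galChar_eq (by simp [ha]) fun x => ?_
  show σ (a (σ.symm x)) = τ' x
  have h2 : σ.symm x = ((g.symm x : ψ.field) : Qb) := by
    rw [AlgEquiv.symm_apply_eq, hσ, AlgEquiv.apply_symm_apply]
  rw [h2, ha', hσ, ← hconj, AlgEquiv.apply_symm_apply]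

/-- The restriction of an automorphism of the extension to the cyclotomic field. -/
def restrictCyclo (g : ψ.field ≃ₐ[ℚ] ψ.field) : cycloField p ≃ₐ[ℚ] cycloField p :=
  AlgEquiv.restrictNormal g (cycloField p)

theorem restrictCyclo_commutes (g : ψ.field ≃ₐ[ℚ] ψ.field) (x : cycloField p) :
    algebraMap (cycloField p) ψ.field (ψ.restrictCyclo g x) =
      g (algebraMap (cycloField p) ψ.field x) :=
  AlgEquiv.restrictNormal_commutes g (cycloField p) x

/-- The conjugate of an automorphism over the cyclotomic field by one over `ℚ`. -/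
def conjGal (g : ψ.field ≃ₐ[ℚ] ψ.field) (τ : ψ.field ≃ₐ[cycloField p] ψ.field) :
    ψ.field ≃ₐ[cycloField p] ψ.field :=
  AlgEquiv.ofRingEquiv (f := (g.symm.toRingEquiv.trans τ.toRingEquiv).trans g.toRingEquiv)
    fun x => by
      obtain ⟨y, rfl⟩ := (ψ.restrictCyclo g).surjective x
      show g (τ (g.symm (algebraMap (cycloField p) ψ.field (ψ.restrictCyclo g y)))) = _
      rw [ψ.restrictCyclo_commutes, AlgEquiv.symm_apply_apply, AlgEquiv.commutes]

theorem conjGal_apply (g : ψ.field ≃ₐ[ℚ] ψ.field) (τ : ψ.field ≃ₐ[cycloField p] ψ.field)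
    (x : ψ.field) : ψ.conjGal g τ (g x) = g (τ x) := by
  show g (τ (g.symm (g x))) = g (τ x)
  rw [AlgEquiv.symm_apply_apply]

/-- The prime below a translate is the translate of the prime below. -/
theorem under_smul (g : ψ.field ≃ₐ[ℚ] ψ.field) (Q : Ideal (𝓞 ψ.field)) :
    (g • Q).under (𝓞 (cycloField p)) = ψ.restrictCyclo g • Q.under (𝓞 (cycloField p)) := by
  ext x
  rw [Ideal.mem_comap, Ideal.mem_pointwise_smul_iff_inv_smul_mem,
    Ideal.mem_pointwise_smul_iff_inv_smul_mem, Ideal.mem_comap]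
  have h : g⁻¹ • algebraMap (𝓞 (cycloField p)) (𝓞 ψ.field) x =
      algebraMap (𝓞 (cycloField p)) (𝓞 ψ.field) ((ψ.restrictCyclo g)⁻¹ • x) := by
    refine NumberField.RingOfIntegers.ext ?_
    show g.symm (algebraMap (cycloField p) ψ.field x) =
      algebraMap (cycloField p) ψ.field ((ψ.restrictCyclo g).symm x)
    rw [AlgEquiv.symm_apply_eq, ← ψ.restrictCyclo_commutes, AlgEquiv.apply_symm_apply]
  rw [h]

/-- The conjugate of a Frobenius element is a Frobenius element at the translated prime. -/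
theorem isArithFrobAt_conjGal (g : ψ.field ≃ₐ[ℚ] ψ.field) {Q : Ideal (𝓞 ψ.field)}
    {τ : ψ.field ≃ₐ[cycloField p] ψ.field} (hτ : IsArithFrobAt (𝓞 (cycloField p)) τ Q) :
    IsArithFrobAt (𝓞 (cycloField p)) (ψ.conjGal g τ) (g • Q) := by
  intro y
  obtain ⟨x, rfl⟩ : ∃ x, g • x = y := ⟨g⁻¹ • y, smul_inv_smul g y⟩
  have hN : Nat.card (𝓞 (cycloField p) ⧸ (g • Q).under (𝓞 (cycloField p))) =
      Nat.card (𝓞 (cycloField p) ⧸ Q.under (𝓞 (cycloField p))) := by
    rw [ψ.under_smul]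
    exact (Nat.card_congr (Ideal.quotientEquiv (Q.under (𝓞 (cycloField p))) _
      (MulSemiringAction.toRingEquiv (cycloField p ≃ₐ[ℚ] cycloField p) (𝓞 (cycloField p))
        (ψ.restrictCyclo g)) rfl).toEquiv).symm
  rw [hN]
  have h1 : g • ((MulSemiringAction.toAlgHom (𝓞 (cycloField p)) (𝓞 ψ.field) τ) x -
      x ^ Nat.card (𝓞 (cycloField p) ⧸ Q.under (𝓞 (cycloField p)))) ∈ g • Q :=
    Ideal.smul_mem_pointwise_smul g _ Q (hτ x)
  rw [smul_sub, smul_pow'] at h1
  have h2 : g • (MulSemiringAction.toAlgHom (𝓞 (cycloField p)) (𝓞 ψ.field) τ) x =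
      (MulSemiringAction.toAlgHom (𝓞 (cycloField p)) (𝓞 ψ.field) (ψ.conjGal g τ)) (g • x) :=
    NumberField.RingOfIntegers.ext (ψ.conjGal_apply g τ x).symm
  rwa [h2] at h1

/-- Frobenius elements over the cyclotomic field are unique. -/
theorem eq_of_isArithFrobAt {Q : Ideal (𝓞 ψ.field)} [Q.IsMaximal]
    {τ τ' : ψ.field ≃ₐ[cycloField p] ψ.field} (h : IsArithFrobAt (𝓞 (cycloField p)) τ Q)
    (h' : IsArithFrobAt (𝓞 (cycloField p)) τ' Q) : τ = τ' := by
  have := h.mul_inv_mem_inertia h'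
  rw [ψ.inertia_eq_bot Q, Subgroup.mem_bot, mul_inv_eq_one] at this
  exact this

/-- The character of Frobenius elements transforms by the inverse cyclotomic character. -/
theorem galChar_frob_smul (g : ψ.field ≃ₐ[ℚ] ψ.field) {Q : Ideal (𝓞 ψ.field)}
    [(g • Q).IsMaximal] {τ τ' : ψ.field ≃ₐ[cycloField p] ψ.field}
    (hτ : IsArithFrobAt (𝓞 (cycloField p)) τ Q)
    (hτ' : IsArithFrobAt (𝓞 (cycloField p)) τ' (g • Q)) {c : ℕ} (hg : g ψ.zeta = ψ.zeta ^ c) :
    (c : ZMod p) * ψ.galChar τ' = ψ.galChar τ :=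
  ψ.galChar_conj g τ τ'
    (fun x => by rw [ψ.eq_of_isArithFrobAt hτ' (ψ.isArithFrobAt_conjGal g hτ), conjGal_apply]) hg

end UnramifiedEigenCharacter

end Fermat.Agent.ClassField.S14
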