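import Fermat.Agent.ClassField.S14.Field
import Mathlib.NumberTheory.RamificationInertia.Galois
import Mathlib.RingTheory.RamificationInertia.Ramification

/-!
The extension cut out by an unramified eigen-character, as an extension of the cyclotomic field.
-/

set_option autoImplicit false

noncomputable section

open scoped Pointwise NumberField

namespace Fermat.Agent.ClassField.S14

open ExtCitation IntermediateField

local notation "Qb" => AlgebraicClosure ℚ
local notation "Γ" => (AlgebraicClosure ℚ ≃ₐ[ℚ] AlgebraicClosure ℚ)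

local instance : Algebra.IsAlgebraic ℚ Qb := AlgebraicClosure.isAlgebraic ℚ
local instance : IsAlgClosure ℚ Qb := ⟨inferInstance, inferInstance⟩
local instance : IsGalois ℚ Qb := IsAlgClosure.isGalois ℚ Qb

variable {p : ℕ} [Fact p.Prime]

local instance : NeZero p := ⟨(Fact.out : p.Prime).ne_zero⟩

namespace UnramifiedEigenCharacter

variable (ψ : UnramifiedEigenCharacter p)

instance : NumberField ψ.field := ⟨⟩

instance : NumberField (cycloField p) := ⟨⟩

instance algebraCyclo : Algebra (cycloField p) ψ.field :=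
  (IntermediateField.inclusion ψ.cycloField_le).toRingHom.toAlgebra

theorem coe_algebraMap (x : cycloField p) :
    ((algebraMap (cycloField p) ψ.field x : ψ.field) : Qb) = (x : Qb) := rfl

instance : IsScalarTower ℚ (cycloField p) ψ.field :=
  IsScalarTower.of_algebraMap_eq fun _ => rfl

instance : FiniteDimensional (cycloField p) ψ.field :=
  FiniteDimensional.right ℚ (cycloField p) ψ.field

instance : IsGalois (cycloField p) ψ.field := IsGalois.tower_top_of_isGalois ℚ _ _

/-- An automorphism of the extension extends to an automorphism of `ℚ̄` fixing the roots of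
unity. -/
theorem exists_lift (τ : ψ.field ≃ₐ[cycloField p] ψ.field) :
    ∃ h : Γ, cycloChar p h = 1 ∧ ∀ x : ψ.field, h x = τ x := by
  refine ⟨(τ.restrictScalars ℚ).liftNormal Qb, ?_,
    fun x => AlgEquiv.liftNormal_commutes (τ.restrictScalars ℚ) Qb x⟩
  rw [cycloChar_eq_one_iff]
  have h1 := AlgEquiv.liftNormal_commutes (τ.restrictScalars ℚ) Qb
    (algebraMap (cycloField p) ψ.field ⟨zetaP p, mem_adjoin_simple_self ℚ _⟩)
  refine h1.trans ?_
  show ((τ (algebraMap (cycloField p) ψ.field ⟨zetaP p, mem_adjoin_simple_self ℚ _⟩) : ψ.field) :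
    Qb) = zetaP p
  rw [AlgEquiv.commutes]
  rfl

/-- The character read on the Galois group of the extension. -/
def galChar (τ : ψ.field ≃ₐ[cycloField p] ψ.field) : ZMod p :=
  ψ.toFun (ψ.exists_lift τ).choose

theorem toFun_eq_of_apply_eq {a b : Γ} (ha : cycloChar p a = 1) (hb : cycloChar p b = 1)
    (h : ∀ x : ψ.field, a x = b x) : ψ.toFun a = ψ.toFun b := by
  have h1 : AlgEquiv.restrictNormalHom ψ.field (a * b⁻¹) = 1 := by
    rw [_root_.map_mul, _root_.map_inv, mul_inv_eq_one]
    exact AlgEquiv.ext fun x => Subtype.ext (((AlgEquiv.restrictNormal_commutes a ψ.field x).trans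
      (h x)).trans (AlgEquiv.restrictNormal_commutes b ψ.field x).symm)
  have h2 := ((ψ.restrictNormal_eq_one_iff _).mp h1).2
  rwa [ψ.map_mul _ _ ha (by simp [hb]), ψ.map_inv hb, add_neg_eq_zero] at h2

theorem galChar_eq {τ : ψ.field ≃ₐ[cycloField p] ψ.field} {h : Γ} (hh : cycloChar p h = 1)
    (hτ : ∀ x : ψ.field, h x = τ x) : ψ.galChar τ = ψ.toFun h :=
  ψ.toFun_eq_of_apply_eq (ψ.exists_lift τ).choose_spec.1 hh
    fun x => ((ψ.exists_lift τ).choose_spec.2 x).trans (hτ x).symm

theorem galChar_mul (τ τ' : ψ.field ≃ₐ[cycloField p] ψ.field) :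
    ψ.galChar (τ * τ') = ψ.galChar τ + ψ.galChar τ' := by
  obtain ⟨a, ha, ha'⟩ := ψ.exists_lift τ
  obtain ⟨b, hb, hb'⟩ := ψ.exists_lift τ'
  rw [ψ.galChar_eq ha ha', ψ.galChar_eq hb hb', ← ψ.map_mul a b ha hb]
  refine ψ.galChar_eq (by simp [ha, hb]) fun x => ?_
  show a (b x) = _
  rw [hb', ha']
  rfl

/-- The character identifies the Galois group of the extension with `ℤ/p`. -/
def galEquiv : Additive (ψ.field ≃ₐ[cycloField p] ψ.field) ≃+ ZMod p :=
  AddEquiv.ofBijective
    (AddMonoidHom.mk' (fun τ => ψ.galChar τ.toMul) fun a b => ψ.galChar_mul a.toMul b.toMul) <| by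
    constructor
    · refine (injective_iff_map_eq_zero _).mpr fun τ hτ => ?_
      obtain ⟨a, ha, ha'⟩ := ψ.exists_lift τ.toMul
      have h1 : ψ.toFun a = 0 := (ψ.galChar_eq ha ha').symm.trans hτ
      have h2 := (ψ.restrictNormal_eq_one_iff a).mpr ⟨ha, h1⟩
      refine Additive.toMul.injective (AlgEquiv.ext fun x => Subtype.ext ?_)
      refine (ha' x).symm.trans ((AlgEquiv.restrictNormal_commutes a ψ.field x).symm.trans ?_)
      show ((AlgEquiv.restrictNormalHom ψ.field a) x : Qb) = _
      rw [h2]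
      rfl
    · intro t
      obtain ⟨h, hh, hne⟩ := ψ.exists_ne_zero
      obtain ⟨n, hn⟩ : ∃ n : ℕ, (n : ZMod p) * ψ.toFun h = t :=
        ⟨(t / ψ.toFun h).val, by rw [ZMod.natCast_val, ZMod.cast_id', id_eq, div_mul_cancel₀ _ hne]⟩
      have hfix : ∀ x : cycloField p, (h ^ n) x = x := fun x => by
        have hmem : h ^ n ∈ (cycloField p).fixingSubgroup := by
          rw [fixingSubgroup_cycloField, MonoidHom.mem_ker, _root_.map_pow, hh, one_pow]
        exact (IntermediateField.mem_fixingSubgroup_iff _ _).mp hmem x x.2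
      let τ : ψ.field ≃ₐ[cycloField p] ψ.field :=
        AlgEquiv.ofRingEquiv (f := (AlgEquiv.restrictNormal (h ^ n) ψ.field).toRingEquiv)
          fun x => Subtype.ext ((AlgEquiv.restrictNormal_commutes (h ^ n) ψ.field
            (algebraMap (cycloField p) ψ.field x)).trans (hfix x))
      refine ⟨Additive.ofMul τ, ?_⟩
      show ψ.galChar τ = t
      have h1 := ψ.galChar_eq (τ := τ) (h := h ^ n) (by simp [hh]) fun x =>
        (AlgEquiv.restrictNormal_commutes (h ^ n) ψ.field x).symm
      rw [h1, ψ.map_pow hh, hn]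

theorem galEquiv_apply (τ : ψ.field ≃ₐ[cycloField p] ψ.field) :
    ψ.galEquiv (Additive.ofMul τ) = ψ.galChar τ := rfl

theorem card_gal : Nat.card (ψ.field ≃ₐ[cycloField p] ψ.field) = p := by
  exact (Nat.card_congr (Additive.ofMul.trans ψ.galEquiv.toEquiv)).trans (Nat.card_zmod p)

theorem finrank_field : Module.finrank (cycloField p) ψ.field = p := by
  rw [← IsGalois.card_aut_eq_finrank, ψ.card_gal]

theorem isCyclic_gal : IsCyclic (ψ.field ≃ₐ[cycloField p] ψ.field) :=
  isCyclic_of_prime_card ψ.card_gal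

/-- Every maximal ideal of the ring of integers has trivial inertia over the cyclotomic field. -/
theorem inertia_eq_bot (P : Ideal (𝓞 ψ.field)) [P.IsMaximal] :
    P.inertia (ψ.field ≃ₐ[cycloField p] ψ.field) = ⊥ := by
  rw [eq_bot_iff]
  intro τ hτ
  have hτ' : ∀ x : 𝓞 ψ.field, (τ.restrictScalars ℚ) • x - x ∈ P := fun x => hτ x
  have hP0 : P ≠ ⊥ := Ring.ne_bot_of_isMaximal_of_not_isField inferInstance
    (NumberField.RingOfIntegers.not_isField _)
  obtain ⟨ℓ, hℓ, hℓP⟩ : ∃ ℓ : ℕ, ℓ.Prime ∧ (ℓ : 𝓞 ψ.field) ∈ P := by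
    have h1 : (P.under ℤ).IsPrime := inferInstance
    have h2 : P.under ℤ ≠ ⊥ := Ideal.under_ne_bot ℤ hP0
    obtain ⟨m, hm⟩ := (IsPrincipalIdealRing.principal (P.under ℤ))
    have hm' : Prime m := by
      rw [← Ideal.span_singleton_prime (fun h => h2 (by rw [hm, h]; simp))]
      rw [Ideal.span]
      rwa [← hm]
    refine ⟨m.natAbs, Int.prime_iff_natAbs_prime.mp hm', ?_⟩
    have h3 : (m.natAbs : ℤ) ∈ P.under ℤ := by
      rw [hm, ← Ideal.span, Ideal.mem_span_singleton]
      exact Int.dvd_natAbs.mpr dvd_rfl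
    rw [Ideal.mem_comap, map_natCast] at h3
    exact h3
  have h1 : τ.restrictScalars ℚ = 1 := by
    by_cases hℓp : ℓ = p
    · subst hℓp
      refine ψ.eq_one_of_decomposition P hℓP (fun x => ⟨fun h => by simpa using P.sub_mem h (hτ' x),
        fun h => by simpa using P.add_mem (hτ' x) h⟩) ?_
      exact τ.commutes ⟨zetaP ℓ, mem_adjoin_simple_self ℚ _⟩
    · exact ψ.eq_one_of_inertia P hℓ hℓp hℓP hτ'
  exact Subgroup.mem_bot.mpr (AlgEquiv.ext fun x => DFunLike.congr_fun h1 x)

/-- Above `p` decomposition groups over the cyclotomic field are trivial. -/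
theorem stabilizer_eq_bot (P : Ideal (𝓞 ψ.field)) [P.IsMaximal] (hpP : (p : 𝓞 ψ.field) ∈ P) :
    MulAction.stabilizer (ψ.field ≃ₐ[cycloField p] ψ.field) P = ⊥ := by
  rw [eq_bot_iff]
  intro τ hτ
  have h1 : τ.restrictScalars ℚ = 1 := by
    refine ψ.eq_one_of_decomposition P hpP (fun x => ?_)
      (τ.commutes ⟨zetaP p, mem_adjoin_simple_self ℚ _⟩)
    show τ • x ∈ P ↔ x ∈ P
    conv_lhs => rw [← MulAction.mem_stabilizer_iff.mp hτ]
    exact Ideal.smul_mem_pointwise_smul_iff
  exact Subgroup.mem_bot.mpr (AlgEquiv.ext fun x => DFunLike.congr_fun h1 x)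

end UnramifiedEigenCharacter

end Fermat.Agent.ClassField.S14
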