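import Fermat.Agent.Galois.Frobenius
import Fermat.Prelude.Def_FLTPrelim_Ramification
import Mathlib.NumberTheory.NumberField.Basic

/-!
Lifting decomposition and inertia elements of a finite Galois number field inside the algebraic
closure of the rationals to a place of the algebraic closure.
-/

set_option autoImplicit false

noncomputable section

open scoped Pointwise NumberField

namespace Fermat.Agent.ClassField.S14

open Fermat.Agent.Galois

local notation "Qb" => AlgebraicClosure ℚ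
local notation "Γ" => (AlgebraicClosure ℚ ≃ₐ[ℚ] AlgebraicClosure ℚ)
local notation "Ob" => integralClosure ℤ (AlgebraicClosure ℚ)

local instance : Algebra.IsAlgebraic ℚ Qb := AlgebraicClosure.isAlgebraic ℚ
local instance : IsAlgClosure ℚ Qb := ⟨inferInstance, inferInstance⟩
local instance : IsGalois ℚ Qb := IsAlgClosure.isGalois ℚ Qb
local instance : TopologicalSpace Ob := ⊥
local instance : DiscreteTopology Ob := ⟨rfl⟩

/-- A valuation subring whose maximal ideal cuts out a given maximal ideal of the algebraic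
integers. -/
theorem exists_valuationSubring_center (Q : Ideal Ob) [Q.IsMaximal] :
    ∃ A : ValuationSubring Qb, ∀ x : Ob, x ∈ Q ↔ (x : Qb) ∈ A.nonunits := by
  obtain ⟨A, -, hA⟩ := Ideal.image_subset_nonunits_valuationSubring (A := (Ob).toSubring) Q
    (Ideal.IsPrime.ne_top inferInstance)
  refine ⟨A, fun x => ⟨fun hx => hA ⟨x, hx, rfl⟩, fun hx => ?_⟩⟩
  let J : Ideal Ob :=
    { carrier := {y | (y : Qb) ∈ A.nonunits}
      zero_mem' := by
        show (0 : Qb) ∈ A.nonunits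
        exact zero_mem _
      add_mem' := fun {a b} ha hb => by
        show ((a : Qb) + b) ∈ A.nonunits
        exact add_mem ha hb
      smul_mem' := fun a {b} hb => by
        show ((a : Qb) * b) ∈ A.nonunits
        rw [ValuationSubring.mem_nonunits_iff, map_mul]
        calc A.valuation (a : Qb) * A.valuation (b : Qb) ≤ 1 * A.valuation (b : Qb) :=
              mul_le_mul_left ((A.valuation_le_one_iff _).mpr
                (mem_valuationSubring_of_isIntegral_int A a.2)) _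
          _ < 1 := by rw [one_mul]; exact A.mem_nonunits_iff.mp hb }
  have hJ : Q = J := by
    refine Ideal.IsMaximal.eq_of_le ‹Q.IsMaximal› (fun h1 => ?_) (fun y hy => hA ⟨y, hy, rfl⟩)
    have : (1 : Ob) ∈ J := h1 ▸ Submodule.mem_top
    have : (1 : Qb) ∈ A.nonunits := this
    rw [ValuationSubring.mem_nonunits_iff, map_one] at this
    exact lt_irrefl _ this
  rw [hJ]
  exact hx

variable {A : ValuationSubring Qb} {Q : Ideal Ob}

/-- An automorphism preserving the centre of a place preserves the place. -/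
theorem mem_decompositionSubgroup_of_center {ℓ : ℕ} (hℓ : ℓ.Prime) (hA : A.LiesOverPrime ℓ)
    (hQ : ∀ x : Ob, x ∈ Q ↔ (x : Qb) ∈ A.nonunits) {σ : Γ}
    (hσ : ∀ x : Ob, σ • x ∈ Q ↔ x ∈ Q) : σ ∈ A.decompositionSubgroup ℚ := by
  have hrep : ∀ x : Qb, x ∈ A → ∃ s t : Ob, s ∉ Q ∧ x * (s : Qb) = t := by
    intro x hx
    obtain ⟨s, hs1, hs2, hs3⟩ := exists_isIntegral_mul_of_mem A hℓ hA
      ((IsFractionRing.isAlgebraic_iff ℤ ℚ Qb).mpr (Algebra.IsAlgebraic.isAlgebraic x)) hx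
    exact ⟨⟨s, hs1⟩, ⟨_, hs2⟩, fun h => hs3 ((hQ _).mp h), rfl⟩
  have hdiv : ∀ x : Qb, ∀ s t : Ob, s ∉ Q → x * (s : Qb) = t → x ∈ A := by
    intro x s t hs hxs
    rw [hQ, A.mem_nonunits_iff, not_lt] at hs
    rw [← A.valuation_le_one_iff]
    have h1 : A.valuation x * A.valuation (s : Qb) ≤ 1 := by
      rw [← map_mul, hxs]
      exact (A.valuation_le_one_iff _).mpr (mem_valuationSubring_of_isIntegral_int A t.2)
    exact le_trans (le_mul_of_one_le_right zero_le hs) h1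
  have hσ' : ∀ x : Ob, σ⁻¹ • x ∈ Q ↔ x ∈ Q := fun x => by
    conv_rhs => rw [← smul_inv_smul σ x, hσ]
  rw [MulAction.mem_stabilizer_iff]
  ext x
  rw [ValuationSubring.mem_smul_pointwise_iff_exists]
  constructor
  · rintro ⟨y, hy, rfl⟩
    obtain ⟨s, t, hs, hys⟩ := hrep y hy
    refine hdiv _ (σ • s) (σ • t) (fun h => hs ((hσ s).mp h)) ?_
    show σ y * σ (s : Qb) = σ (t : Qb)
    rw [← map_mul, hys]
  · intro hx
    obtain ⟨s, t, hs, hxs⟩ := hrep x hx
    refine ⟨σ.symm x, hdiv _ (σ⁻¹ • s) (σ⁻¹ • t) (fun h => hs ((hσ' s).mp h)) ?_,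
      σ.apply_symm_apply x⟩
    show σ.symm x * σ.symm (s : Qb) = σ.symm (t : Qb)
    rw [← map_mul, hxs]

/-- An automorphism congruent to the identity modulo the centre of a place is in its inertia
group. -/
theorem mem_inertiaSubgroupIn_of_center {ℓ : ℕ} (hℓ : ℓ.Prime) (hA : A.LiesOverPrime ℓ)
    (hQ : ∀ x : Ob, x ∈ Q ↔ (x : Qb) ∈ A.nonunits) {σ : Γ}
    (hσ : ∀ x : Ob, σ • x - x ∈ Q) : σ ∈ A.inertiaSubgroupIn ℚ := by
  have hdec : σ ∈ A.decompositionSubgroup ℚ := by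
    refine mem_decompositionSubgroup_of_center hℓ hA hQ fun x => ?_
    exact ⟨fun h => by simpa using Q.sub_mem h (hσ x), fun h => by simpa using Q.add_mem (hσ x) h⟩
  refine ⟨⟨σ, hdec⟩, ?_, rfl⟩
  rw [ValuationSubring.inertiaSubgroup, SetLike.mem_coe, MonoidHom.mem_ker]
  refine RingEquiv.ext fun y => ?_
  obtain ⟨⟨x, hx⟩, rfl⟩ := IsLocalRing.residue_surjective y
  obtain ⟨s₀, hs1, hs2, hs3⟩ := exists_isIntegral_mul_of_mem A hℓ hA
      ((IsFractionRing.isAlgebraic_iff ℤ ℚ Qb).mpr (Algebra.IsAlgebraic.isAlgebraic x)) hx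
  let s : A := ⟨s₀, mem_valuationSubring_of_isIntegral_int A hs1⟩
  let t : A := ⟨x * s₀, mem_valuationSubring_of_isIntegral_int A hs2⟩
  have hxs : (⟨x, hx⟩ : A) * s = t := Subtype.ext rfl
  have hres : ∀ b : A, IsIntegral ℤ (b : Qb) →
      (⟨σ, hdec⟩ : A.decompositionSubgroup ℚ) • IsLocalRing.residue A b =
        IsLocalRing.residue A b := by
    intro b hb
    rw [← IsLocalRing.ResidueField.residue_smul]
    refine Ideal.Quotient.eq.mpr ?_
    rw [← ValuationSubring.coe_mem_nonunits_iff]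
    exact (hQ _).mp (hσ ⟨b, hb⟩)
  have hs0 : IsLocalRing.residue A s ≠ 0 := fun h => hs3
    (ValuationSubring.coe_mem_nonunits_iff.mpr ((IsLocalRing.residue_eq_zero_iff _).mp h))
  show (⟨σ, hdec⟩ : A.decompositionSubgroup ℚ) • IsLocalRing.residue A ⟨x, hx⟩ =
    IsLocalRing.residue A ⟨x, hx⟩
  refine mul_right_cancel₀ hs0 ?_
  conv_lhs => rw [← hres s hs1]
  rw [← smul_mul', ← map_mul, hxs, hres t hs2]

variable (E : IntermediateField ℚ Qb)

/-- The inclusion of the integers of a subfield into the algebraic integers. -/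
def ringOfIntegersToOb : 𝓞 E →+* Ob where
  toFun x := ⟨((x : E) : Qb), x.2.map (E.val.restrictScalars ℤ)⟩
  map_one' := rfl
  map_mul' _ _ := rfl
  map_zero' := rfl
  map_add' _ _ := rfl

variable [FiniteDimensional ℚ E]

/-- Over every maximal ideal `P` of `𝓞 E` there is a place of the algebraic closure such that the
stabiliser of `P` lifts to its decomposition group and the inertia group of `P` to its inertia
group. -/
theorem exists_place_over (P : Ideal (𝓞 E)) [P.IsMaximal] {ℓ : ℕ} (hℓ : ℓ.Prime)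
    (hℓP : (ℓ : 𝓞 E) ∈ P) :
    ∃ A : ValuationSubring Qb, A.LiesOverPrime ℓ ∧
      (∀ x : 𝓞 E, x ∈ P ↔ ((x : E) : Qb) ∈ A.nonunits) ∧
      (∀ τ : E ≃ₐ[ℚ] E, (∀ x : 𝓞 E, τ • x ∈ P ↔ x ∈ P) →
        ∃ σ ∈ A.decompositionSubgroup ℚ, ∀ x : E, σ x = τ x) ∧
      (∀ τ : E ≃ₐ[ℚ] E, (∀ x : 𝓞 E, τ • x - x ∈ P) →
        ∃ σ ∈ A.inertiaSubgroupIn ℚ, ∀ x : E, σ x = τ x) := by
  let : Algebra (𝓞 E) Ob := (ringOfIntegersToOb E).toAlgebra
  have hcoe : ∀ x : 𝓞 E, ((algebraMap (𝓞 E) Ob x : Ob) : Qb) = ((x : E) : Qb) := fun x => rfl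
  have hint : Algebra.IsIntegral (𝓞 E) Ob := ⟨fun b => by
    refine IsIntegral.tower_top (R := ℤ) ?_
    exact (isIntegral_algHom_iff (Ob).val Subtype.val_injective).mp b.2⟩
  have hinj : Function.Injective (algebraMap (𝓞 E) Ob) := fun a b h => by
    have h1 := congrArg Subtype.val h
    rw [hcoe, hcoe] at h1
    exact NumberField.RingOfIntegers.ext (Subtype.ext h1)
  obtain ⟨Q, hQmax, hQcomap⟩ := Ideal.exists_ideal_over_maximal_of_isIntegral (S := Ob) P
    (by rw [(RingHom.injective_iff_ker_eq_bot _).mp hinj]; exact bot_le)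
  have hQP : Q.LiesOver P := ⟨hQcomap.symm⟩
  have hmemP : ∀ x : 𝓞 E, algebraMap (𝓞 E) Ob x ∈ Q ↔ x ∈ P := fun x => by
    rw [← hQcomap]; rfl
  obtain ⟨A, hA⟩ := exists_valuationSubring_center Q
  have hAℓ : A.LiesOverPrime ℓ := by
    have := (hA _).mp ((hmemP _).mpr hℓP)
    simpa [ValuationSubring.LiesOverPrime] using this
  refine ⟨A, hAℓ, fun x => by rw [← hmemP, hA, hcoe], ?_⟩
  -- the Galois group over `E`
  let G : Subgroup Γ := E.fixingSubgroup
  have : CompactSpace G :=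
    isCompact_iff_compactSpace.mp (E.fixingSubgroup_isClosed.isCompact)
  have : SMulCommClass G (𝓞 E) Ob := ⟨fun g r b => by
    refine Subtype.ext ?_
    show (g : Γ) (((r : E) : Qb) * (b : Qb)) = ((r : E) : Qb) * (g : Γ) (b : Qb)
    rw [map_mul]
    congr 1
    exact g.2 (r : E)⟩
  have : ContinuousSMul G Ob := by
    rw [continuousSMul_iff_stabilizer_isOpen]
    intro x
    have h : MulAction.stabilizer G x =
        (MulAction.stabilizer Γ (x : Qb)).subgroupOf G := by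
      ext σ
      exact Subtype.ext_iff
    rw [h]
    exact (stabilizer_isOpen_of_isIntegral (K := ℚ) _).preimage continuous_subtype_val
  have : Algebra.IsInvariant (𝓞 E) Ob G := ⟨fun b hb => by
    have hbE : (b : Qb) ∈ E := by
      rw [← InfiniteGalois.fixedField_fixingSubgroup E, IntermediateField.mem_fixedField_iff]
      exact fun σ hσ => congrArg Subtype.val (hb ⟨σ, hσ⟩)
    refine ⟨⟨⟨b, hbE⟩, (isIntegral_algHom_iff (E.val.restrictScalars ℤ)
      (RingHom.injective (E.val : E →+* Qb))).mp b.2⟩, rfl⟩⟩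
  -- lifting the stabiliser
  have hlift : ∀ τ : E ≃ₐ[ℚ] E, (∀ x : 𝓞 E, τ • x ∈ P ↔ x ∈ P) →
      ∃ σ : Γ, σ • Q = Q ∧ ∀ x : E, σ x = τ x := by
    intro τ hτ
    let σ₀ : Γ := τ.liftNormal Qb
    have hσ₀ : ∀ x : E, σ₀ x = τ x := fun x => AlgEquiv.liftNormal_commutes τ Qb x
    have hcomm : ∀ x : 𝓞 E, σ₀ • algebraMap (𝓞 E) Ob x = algebraMap (𝓞 E) Ob (τ • x) :=
      fun x => Subtype.ext (hσ₀ x)
    have hunder : Q.under (𝓞 E) = (σ₀⁻¹ • Q).under (𝓞 E) := by
      refine Ideal.ext fun x => ?_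
      rw [Ideal.mem_comap, Ideal.mem_comap, Ideal.mem_inv_pointwise_smul_iff, hcomm, hmemP, hmemP,
        hτ]
    have : (σ₀⁻¹ • Q).IsPrime := inferInstance
    obtain ⟨g, hg⟩ := Algebra.IsInvariant.exists_smul_of_under_eq_of_profinite (G := G) Q
      (σ₀⁻¹ • Q) hunder
    refine ⟨σ₀ * g, ?_, fun x => ?_⟩
    · rw [mul_smul]
      rw [show (g : Γ) • Q = σ₀⁻¹ • Q from hg.symm, smul_inv_smul]
    · show σ₀ ((g : Γ) x) = τ x
      rw [show (g : Γ) x = x from g.2 x, hσ₀]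
  have hmemQ : ∀ σ : Γ, σ • Q = Q → ∀ b : Ob, σ • b ∈ Q ↔ b ∈ Q := fun σ hσ b => by
    conv_lhs => rw [← hσ]
    exact Ideal.smul_mem_pointwise_smul_iff
  refine ⟨fun τ hτ => ?_, fun τ hτ => ?_⟩
  · obtain ⟨σ, hσ, hστ⟩ := hlift τ hτ
    exact ⟨σ, mem_decompositionSubgroup_of_center hℓ hAℓ hA (hmemQ σ hσ), hστ⟩
  · obtain ⟨σ, hσ, hστ⟩ := hlift τ fun x => ⟨fun h => by simpa using P.sub_mem h (hτ x),
      fun h => by simpa using P.add_mem (hτ x) h⟩
    -- the residual automorphism is linear over `𝓞 E ⧸ P`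
    have hres : ∀ b : Ob, b ∈ Q → σ • b ∈ Q := fun b hb => (hmemQ σ hσ b).mpr hb
    have hres' : ∀ b : Ob, b ∈ Q → σ⁻¹ • b ∈ Q := fun b hb =>
      (hmemQ σ⁻¹ (inv_smul_eq_iff.mpr hσ.symm) b).mpr hb
    let f : (Ob ⧸ Q) →+* (Ob ⧸ Q) :=
      Ideal.quotientMap Q (MulSemiringAction.toRingHom Γ Ob σ) fun b hb => hres b hb
    let f' : (Ob ⧸ Q) →+* (Ob ⧸ Q) :=
      Ideal.quotientMap Q (MulSemiringAction.toRingHom Γ Ob σ⁻¹) fun b hb => hres' b hb
    let e : (Ob ⧸ Q) ≃ₐ[𝓞 E ⧸ P] (Ob ⧸ Q) :=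
      AlgEquiv.ofRingEquiv (f := RingEquiv.ofRingHom f f'
          (Ideal.Quotient.ringHom_ext (RingHom.ext fun b =>
            congrArg (Ideal.Quotient.mk Q) (smul_inv_smul σ b)))
          (Ideal.Quotient.ringHom_ext (RingHom.ext fun b =>
            congrArg (Ideal.Quotient.mk Q) (inv_smul_smul σ b)))) fun r => by
        obtain ⟨x, rfl⟩ := Ideal.Quotient.mk_surjective r
        show Ideal.Quotient.mk Q (σ • algebraMap (𝓞 E) Ob x) =
          Ideal.Quotient.mk Q (algebraMap (𝓞 E) Ob x)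
        rw [Ideal.Quotient.eq, show σ • algebraMap (𝓞 E) Ob x = algebraMap (𝓞 E) Ob (τ • x) from
          Subtype.ext (hστ x), ← map_sub, hmemP]
        exact hτ x
    obtain ⟨⟨g, hg⟩, hge⟩ :=
      Ideal.Quotient.stabilizerHom_surjective_of_profinite (G := G) P Q e
    refine ⟨(g : Γ)⁻¹ * σ, mem_inertiaSubgroupIn_of_center hℓ hAℓ hA fun b => ?_, fun x => ?_⟩
    · have hgb : ∀ c : Ob, (g : Γ) • c - σ • c ∈ Q := fun c =>
        Ideal.Quotient.eq.mp (DFunLike.congr_fun hge (Ideal.Quotient.mk Q c))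
      have h1 := hgb b
      have hgQ : (g : Γ) • Q = Q := hg
      have h2 := (hmemQ (g : Γ)⁻¹ (inv_smul_eq_iff.mpr hgQ.symm) _).mpr h1
      rw [smul_sub, inv_smul_smul, ← mul_smul] at h2
      simpa using Q.neg_mem h2
    · show (g : Γ).symm (σ x) = τ x
      rw [hστ, AlgEquiv.symm_apply_eq]
      exact (g.2 (τ x)).symm

end Fermat.Agent.ClassField.S14
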