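import Fermat.Agent.ClassField.S14.Character
import Fermat.Agent.ClassField.S14.Places
import Mathlib.NumberTheory.Cyclotomic.Basic
import Mathlib.NumberTheory.NumberField.Cyclotomic.Basic

/-!
The finite extension cut out by an unramified eigen-character: it is Galois over `ℚ`, cyclic of
degree `p` over the `p`-th cyclotomic field, unramified everywhere and split above `p`.
-/

set_option autoImplicit false

noncomputable section

open scoped Pointwise NumberField

namespace Fermat.Agent.ClassField.S14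

open ExtCitation IntermediateField

local notation "Qb" => AlgebraicClosure ℚ
local notation "Γ" => (AlgebraicClosure ℚ ≃ₐ[ℚ] AlgebraicClosure ℚ)

local instance : Algebra.IsAlgebraic ℚ Qb := AlgebraicClosure.isAlgebraic ℚ
local instance : IsAlgClosure ℚ Qb := ⟨inferInstance, inferInstance⟩
local instance : IsGalois ℚ Qb := IsAlgClosure.isGalois ℚ Qb

variable (p : ℕ) [Fact p.Prime]

local instance : NeZero p := ⟨(Fact.out : p.Prime).ne_zero⟩

/-- A fixed primitive `p`-th root of unity in `ℚ̄`. -/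
def zetaP : Qb := (HasEnoughRootsOfUnity.exists_primitiveRoot Qb p).choose

theorem zetaP_spec : IsPrimitiveRoot (zetaP p) p :=
  (HasEnoughRootsOfUnity.exists_primitiveRoot Qb p).choose_spec

/-- The `p`-th cyclotomic field inside `ℚ̄`. -/
def cycloField : IntermediateField ℚ Qb := ℚ⟮zetaP p⟯

instance : IsCyclotomicExtension {p} ℚ (cycloField p) :=
  (zetaP_spec p).intermediateField_adjoin_isCyclotomicExtension ℚ

instance : FiniteDimensional ℚ (cycloField p) :=
  IsCyclotomicExtension.finiteDimensional {p} ℚ (cycloField p)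

instance : IsGalois ℚ (cycloField p) := IsCyclotomicExtension.isGalois {p} ℚ (cycloField p)

theorem apply_zetaP (σ : Γ) : σ (zetaP p) = zetaP p ^ (cycloChar p σ : ZMod p).val :=
  modularCyclotomicCharacter.spec (AlgebraicClosure ℚ) (card_rootsOfUnity_eq_self p)
    (σ : Qb ≃+* Qb) (t := ((zetaP_spec p).isUnit (NeZero.ne p)).unit)
    ((mem_rootsOfUnity _ _).mpr (Units.ext (by simpa using (zetaP_spec p).pow_eq_one)))

theorem cycloChar_eq_one_iff (σ : Γ) : cycloChar p σ = 1 ↔ σ (zetaP p) = zetaP p := by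
  rw [apply_zetaP]
  constructor
  · intro h
    rw [h, Units.val_one, ZMod.val_one, pow_one]
  · intro h
    refine Units.ext (ZMod.val_injective p ?_)
    rw [Units.val_one, ZMod.val_one]
    exact (zetaP_spec p).pow_inj (ZMod.val_lt _) (Fact.out : p.Prime).one_lt (h.trans (pow_one _).symm)

theorem fixingSubgroup_cycloField : (cycloField p).fixingSubgroup = (cycloChar p).ker := by
  ext σ
  rw [MonoidHom.mem_ker, cycloChar_eq_one_iff, IntermediateField.mem_fixingSubgroup_iff]
  constructor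
  · exact fun h => h _ (mem_adjoin_simple_self ℚ _)
  · intro h x hx
    have : cycloField p ≤ fixedField (Subgroup.zpowers σ) := by
      refine adjoin_simple_le_iff.mpr fun g => ?_
      obtain ⟨g, hg⟩ := g
      have : Subgroup.zpowers σ ≤ MulAction.stabilizer Γ (zetaP p) :=
        Subgroup.zpowers_le.mpr h
      exact this hg
    exact (mem_fixedField_iff _ _).mp (this hx) σ (Subgroup.mem_zpowers σ)

variable {p}

namespace UnramifiedEigenCharacter

variable (ψ : UnramifiedEigenCharacter p)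

theorem map_one : ψ.toFun 1 = 0 := by
  simpa using ψ.map_mul 1 1 (_root_.map_one _) (_root_.map_one _)

theorem map_inv {a : Γ} (ha : cycloChar p a = 1) : ψ.toFun a⁻¹ = -ψ.toFun a := by
  refine eq_neg_of_add_eq_zero_left ?_
  rw [← ψ.map_mul _ _ (by simp [ha]) ha, inv_mul_cancel, ψ.map_one]

theorem map_pow {a : Γ} (ha : cycloChar p a = 1) (n : ℕ) :
    ψ.toFun (a ^ n) = n * ψ.toFun a := by
  induction n with
  | zero => simpa using ψ.map_one
  | succ n ih =>
    rw [pow_succ, ψ.map_mul _ _ (by simp [ha]) ha, ih]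
    push_cast
    ring

/-- The kernel of the character, a subgroup of the absolute Galois group. -/
def kerSubgroup : Subgroup Γ where
  carrier := {h | cycloChar p h = 1 ∧ ψ.toFun h = 0}
  one_mem' := ⟨_root_.map_one _, ψ.map_one⟩
  mul_mem' ha hb := ⟨by simp [ha.1, hb.1], by simp [ψ.map_mul _ _ ha.1 hb.1, ha.2, hb.2]⟩
  inv_mem' ha := ⟨by simp [ha.1], by simp [ψ.map_inv ha.1, ha.2]⟩

instance : ψ.kerSubgroup.Normal where
  conj_mem := fun h hh σ => by
    refine ⟨by simp [hh.1], ?_⟩
    have := ψ.conj σ h hh.1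
    rw [hh.2] at this
    exact (mul_eq_zero.mp this).resolve_left (cycloChar p σ).ne_zero

/-- The extension cut out by the character. -/
def field : IntermediateField ℚ Qb := fixedField ψ.kerSubgroup

theorem fixingSubgroup_field : ψ.field.fixingSubgroup = ψ.kerSubgroup :=
  InfiniteGalois.fixingSubgroup_fixedField
    ⟨ψ.kerSubgroup, Subgroup.isClosed_of_isOpen _ ψ.isOpen_ker⟩

instance : FiniteDimensional ℚ ψ.field :=
  (InfiniteGalois.isOpen_iff_finite ψ.field).mp
    (by rw [ψ.fixingSubgroup_field]; exact ψ.isOpen_ker)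

instance : IsGalois ℚ ψ.field :=
  (InfiniteGalois.normal_iff_isGalois ψ.field).mp
    (by rw [ψ.fixingSubgroup_field]; infer_instance)

theorem cycloField_le : cycloField p ≤ ψ.field := by
  refine fun x hx => (mem_fixedField_iff _ _).mpr fun σ hσ => ?_
  have : σ ∈ (cycloField p).fixingSubgroup := by
    rw [fixingSubgroup_cycloField]; exact hσ.1
  exact (IntermediateField.mem_fixingSubgroup_iff _ _).mp this x hx

/-- The primitive root of unity as an element of the extension. -/
def zeta : ψ.field := ⟨zetaP p, ψ.cycloField_le (mem_adjoin_simple_self ℚ _)⟩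

theorem restrictNormal_eq_one_iff (σ : Γ) :
    AlgEquiv.restrictNormalHom ψ.field σ = 1 ↔ cycloChar p σ = 1 ∧ ψ.toFun σ = 0 := by
  have h : σ ∈ ψ.field.fixingSubgroup ↔ cycloChar p σ = 1 ∧ ψ.toFun σ = 0 := by
    rw [ψ.fixingSubgroup_field]; rfl
  rw [← h, IntermediateField.mem_fixingSubgroup_iff]
  constructor
  · intro h1 x hx
    have h2 := AlgEquiv.restrictNormal_commutes σ ψ.field ⟨x, hx⟩
    rw [show AlgEquiv.restrictNormal σ ψ.field = 1 from h1] at h2
    exact h2.symm
  · intro h1
    exact AlgEquiv.ext fun x => Subtype.ext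
      ((AlgEquiv.restrictNormal_commutes σ ψ.field x).trans (h1 x x.2))

/-- Inertia away from `p` is trivial in the extension. -/
theorem eq_one_of_inertia (P : Ideal (𝓞 ψ.field)) [P.IsMaximal] {ℓ : ℕ} (hℓ : ℓ.Prime)
    (hℓp : ℓ ≠ p) (hℓP : (ℓ : 𝓞 ψ.field) ∈ P) {τ : ψ.field ≃ₐ[ℚ] ψ.field}
    (hτ : ∀ x : 𝓞 ψ.field, τ • x - x ∈ P) : τ = 1 := by
  obtain ⟨A, hA, -, -, hI⟩ := exists_place_over ψ.field P hℓ hℓP
  obtain ⟨σ, hσ, hστ⟩ := hI τ hτ
  have h1 := (ψ.restrictNormal_eq_one_iff σ).mpr (ψ.unramified ℓ hℓ hℓp A hA σ hσ)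
  rw [← h1]
  exact AlgEquiv.ext fun x => Subtype.ext
    ((hστ x).symm.trans (AlgEquiv.restrictNormal_commutes σ ψ.field x).symm)

/-- Above `p` the extension is completely split over the cyclotomic field. -/
theorem eq_one_of_decomposition (P : Ideal (𝓞 ψ.field)) [P.IsMaximal]
    (hpP : (p : 𝓞 ψ.field) ∈ P) {τ : ψ.field ≃ₐ[ℚ] ψ.field}
    (hτ : ∀ x : 𝓞 ψ.field, τ • x ∈ P ↔ x ∈ P) (hζ : τ ψ.zeta = ψ.zeta) : τ = 1 := by
  obtain ⟨A, hA, -, hD, -⟩ := exists_place_over ψ.field P Fact.out hpP
  obtain ⟨σ, hσ, hστ⟩ := hD τ hτ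
  have hσζ : cycloChar p σ = 1 := by
    rw [cycloChar_eq_one_iff]
    exact (hστ ψ.zeta).trans (congrArg Subtype.val hζ)
  have h1 := (ψ.restrictNormal_eq_one_iff σ).mpr ⟨hσζ, ψ.split A hA σ hσ hσζ⟩
  rw [← h1]
  exact AlgEquiv.ext fun x => Subtype.ext
    ((hστ x).symm.trans (AlgEquiv.restrictNormal_commutes σ ψ.field x).symm)

end UnramifiedEigenCharacter

end Fermat.Agent.ClassField.S14
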